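import Mathlib
import Fermat.Agent.Curves.BasicOrd

/-!
# Integer valuations on fields, and independence of places
-/

set_option autoImplicit false

noncomputable section

namespace FLTA.GenusKahler

open AlgebraicCurve

namespace PlaceLemmas

variable {K F : Type*} [Field K] [Field F] [Algebra K F] (v : Place K F)

theorem mem_of_ord_nonneg {f : F} (h : 0 ≤ v.ord f) : f ∈ v.toValuationSubring := by
  rcases eq_or_ne f 0 with rfl | hf
  · exact zero_mem _
  · exact (Curves.mem_iff_ord_nonneg v hf).mpr h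

theorem mem_iff {f : F} : f ∈ v.toValuationSubring ↔ 0 ≤ v.ord f :=
  ⟨Curves.ord_nonneg_of_mem v, mem_of_ord_nonneg v⟩

theorem ord_div {f g : F} (hf : f ≠ 0) (hg : g ≠ 0) : v.ord (f / g) = v.ord f - v.ord g := by
  rw [div_eq_mul_inv, v.ord_mul hf (inv_ne_zero hg), v.ord_inv, sub_eq_add_neg]

theorem exists_mem_not_mem {v w : Place K F} (h : v ≠ w) :
    ∃ x : F, x ∈ v.toValuationSubring ∧ x ∉ w.toValuationSubring := by
  by_contra hc
  push Not at hc
  exact h (Curves.place_eq_of_le fun x hx => hc x hx)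

end PlaceLemmas

/-- An additive integer valuation; the value at `0` is irrelevant. -/
structure OrdFun (L : Type*) [Field L] where
  /-- The underlying function. -/
  toFun : L → ℤ
  map_mul' : ∀ a b : L, a ≠ 0 → b ≠ 0 → toFun (a * b) = toFun a + toFun b
  map_add' : ∀ a b : L, a ≠ 0 → b ≠ 0 → a + b ≠ 0 → min (toFun a) (toFun b) ≤ toFun (a + b)

namespace OrdFun

variable {L M : Type*} [Field L] [Field M] (w : OrdFun L)

theorem one_eq : w.toFun 1 = 0 := by
  have := w.map_mul' 1 1 one_ne_zero one_ne_zero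
  rw [mul_one] at this
  omega

theorem neg_eq {a : L} (ha : a ≠ 0) : w.toFun (-a) = w.toFun a := by
  have h1 := w.map_mul' (-1) (-1) (by simp) (by simp)
  rw [neg_mul_neg, mul_one, w.one_eq] at h1
  have h2 := w.map_mul' (-1) a (by simp) ha
  rw [neg_one_mul] at h2
  omega

theorem inv_eq {a : L} (ha : a ≠ 0) : w.toFun a⁻¹ = -w.toFun a := by
  have := w.map_mul' a a⁻¹ ha (inv_ne_zero ha)
  rw [mul_inv_cancel₀ ha, w.one_eq] at this
  omega

theorem div_eq {a b : L} (ha : a ≠ 0) (hb : b ≠ 0) : w.toFun (a / b) = w.toFun a - w.toFun b := by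
  rw [div_eq_mul_inv, w.map_mul' a _ ha (inv_ne_zero hb), w.inv_eq hb, sub_eq_add_neg]

theorem pow_eq {a : L} (ha : a ≠ 0) (n : ℕ) : w.toFun (a ^ n) = n * w.toFun a := by
  induction n with
  | zero => simp [w.one_eq]
  | succ n ih =>
    rw [pow_succ, w.map_mul' _ _ (pow_ne_zero n ha) ha, ih]
    push_cast
    ring

theorem zpow_eq {a : L} (ha : a ≠ 0) (n : ℤ) : w.toFun (a ^ n) = n * w.toFun a := by
  obtain ⟨k, rfl | rfl⟩ := Int.eq_nat_or_neg n
  · rw [zpow_natCast, w.pow_eq ha]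
  · rw [zpow_neg, zpow_natCast, w.inv_eq (pow_ne_zero k ha), w.pow_eq ha, neg_mul]

theorem add_ne_zero_of_lt {a b : L} (ha : a ≠ 0) (h : w.toFun a < w.toFun b) : a + b ≠ 0 :=
  fun h0 => by
    rw [eq_neg_of_add_eq_zero_right h0, w.neg_eq ha] at h
    exact lt_irrefl _ h

theorem add_eq_of_lt {a b : L} (ha : a ≠ 0) (hb : b ≠ 0) (h : w.toFun a < w.toFun b) :
    w.toFun (a + b) = w.toFun a := by
  have h0 := w.add_ne_zero_of_lt ha h
  refine le_antisymm ?_ ?_
  · have h1 := w.map_add' (a + b) (-b) h0 (neg_ne_zero.mpr hb) (by simpa using ha)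
    rw [add_neg_cancel_right, w.neg_eq hb] at h1
    omega
  · have h1 := w.map_add' a b ha hb h0
    omega

/-- The valuation ring. -/
def ring : ValuationSubring L where
  carrier := {a | a = 0 ∨ 0 ≤ w.toFun a}
  mul_mem' := by
    rintro a b ha hb
    rcases eq_or_ne a 0 with rfl | ha0
    · simp
    rcases eq_or_ne b 0 with rfl | hb0
    · simp
    refine Or.inr ?_
    rw [w.map_mul' a b ha0 hb0]
    have := ha.resolve_left ha0
    have := hb.resolve_left hb0
    omega
  one_mem' := Or.inr w.one_eq.ge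
  add_mem' := by
    rintro a b ha hb
    rcases eq_or_ne a 0 with rfl | ha0
    · simpa using hb
    rcases eq_or_ne b 0 with rfl | hb0
    · simpa using ha
    rcases eq_or_ne (a + b) 0 with h | h
    · exact Or.inl h
    refine Or.inr (le_trans ?_ (w.map_add' a b ha0 hb0 h))
    exact le_min (ha.resolve_left ha0) (hb.resolve_left hb0)
  zero_mem' := Or.inl rfl
  neg_mem' := by
    rintro a ha
    rcases eq_or_ne a 0 with rfl | ha0
    · simp
    · exact Or.inr (by rw [w.neg_eq ha0]; exact ha.resolve_left ha0)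
  mem_or_inv_mem' := fun a => by
    rcases eq_or_ne a 0 with rfl | ha0
    · exact Or.inl (Or.inl rfl)
    rcases le_total 0 (w.toFun a) with h | h
    · exact Or.inl (Or.inr h)
    · exact Or.inr (Or.inr (by rw [w.inv_eq ha0]; omega))

theorem mem_ring {a : L} (ha : a ≠ 0) : a ∈ w.ring ↔ 0 ≤ w.toFun a :=
  ⟨fun h => h.resolve_left ha, Or.inr⟩

/-- Pullback along a ring homomorphism. -/
def comap (φ : M →+* L) : OrdFun M where
  toFun a := w.toFun (φ a)
  map_mul' a b ha hb := by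
    rw [map_mul]
    exact w.map_mul' _ _ ((map_ne_zero φ).mpr ha) ((map_ne_zero φ).mpr hb)
  map_add' a b ha hb hab := by
    rw [map_add]
    refine w.map_add' _ _ ((map_ne_zero φ).mpr ha) ((map_ne_zero φ).mpr hb) ?_
    rw [← map_add]
    exact (map_ne_zero φ).mpr hab

theorem comap_apply (φ : M →+* L) (a : M) : (w.comap φ).toFun a = w.toFun (φ a) := rfl

theorem isPrincipalIdealRing_ring : IsPrincipalIdealRing w.ring := by
  classical
  refine ⟨fun I => ?_⟩
  rcases eq_or_ne I ⊥ with rfl | hI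
  · exact ⟨⟨0, (Submodule.span_zero_singleton _).symm⟩⟩
  obtain ⟨a₀, ha₀, ha₀0⟩ := Submodule.exists_mem_ne_zero_of_ne_bot hI
  have hex : ∃ k : ℕ, ∃ a ∈ I, a ≠ 0 ∧ (w.toFun (a : L)).toNat = k := ⟨_, a₀, ha₀, ha₀0, rfl⟩
  obtain ⟨a, haI, ha0, hak⟩ := Nat.find_spec hex
  refine ⟨⟨a, le_antisymm (fun b hb => ?_) ((Ideal.span_singleton_le_iff_mem I).mpr haI)⟩⟩
  rcases eq_or_ne b 0 with rfl | hb0
  · exact Submodule.zero_mem _
  have haL : (a : L) ≠ 0 := by simpa [ne_eq, ZeroMemClass.coe_eq_zero] using ha0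
  have hbL : (b : L) ≠ 0 := by simpa [ne_eq, ZeroMemClass.coe_eq_zero] using hb0
  have hmin : Nat.find hex ≤ (w.toFun (b : L)).toNat := Nat.find_min' hex ⟨b, hb, hb0, rfl⟩
  have hna := (w.mem_ring haL).mp a.2
  have hnb := (w.mem_ring hbL).mp b.2
  have hq : (b : L) / a ∈ w.ring :=
    (w.mem_ring (div_ne_zero hbL haL)).mpr (by rw [w.div_eq hbL haL]; omega)
  refine Ideal.mem_span_singleton.mpr ⟨⟨_, hq⟩, Subtype.ext ?_⟩
  show (b : L) = (a : L) * ((b : L) / a)
  field_simp

end OrdFun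

variable {K F : Type*} [Field K] [Field F] [Algebra K F]

/-- The order at a place as an integer valuation. -/
def placeOrdFun (v : Place K F) : OrdFun F where
  toFun := v.ord
  map_mul' _ _ ha hb := v.ord_mul ha hb
  map_add' _ _ _ _ hab := Curves.min_ord_le_ord_add v hab

/-- Evaluations of polynomials in an element of positive value. -/
theorem OrdFun.exists_aeval_eq_mul (ν : OrdFun F) (hK : ∀ c : K, c ≠ 0 → ν.toFun (algebraMap K F c) = 0)
    {x : F} (hx0 : x ≠ 0) (hx : 0 < ν.toFun x) {p : Polynomial K} (hp : p ≠ 0) :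
    Polynomial.aeval x p ≠ 0 ∧
      ν.toFun (Polynomial.aeval x p) = (Polynomial.rootMultiplicity 0 p : ℤ) * ν.toFun x := by
  obtain ⟨q, hpq, hq⟩ := Polynomial.exists_eq_pow_rootMultiplicity_mul_and_not_dvd p hp 0
  set m := Polynomial.rootMultiplicity 0 p
  rw [Polynomial.C_0, sub_zero] at hpq hq
  have hc : q.coeff 0 ≠ 0 := fun h => hq (Polynomial.X_dvd_iff.mpr h)
  have hcF : algebraMap K F (q.coeff 0) ≠ 0 := (map_ne_zero _).mpr hc
  have key : ∀ r : Polynomial K, Polynomial.aeval x r ≠ 0 →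
      0 ≤ ν.toFun (Polynomial.aeval x r) := by
    intro r hr
    have hmem : Polynomial.aeval x r ∈ ν.ring := by
      rw [Polynomial.aeval_eq_sum_range]
      refine sum_mem fun i _ => ?_
      rw [Algebra.smul_def]
      refine mul_mem ?_ (pow_mem ((ν.mem_ring hx0).mpr hx.le) i)
      rcases eq_or_ne (r.coeff i) 0 with h | h
      · rw [h, map_zero]; exact zero_mem _
      · exact (ν.mem_ring ((map_ne_zero _).mpr h)).mpr (hK _ h).ge
    exact (ν.mem_ring hr).mp hmem
  have hval : Polynomial.aeval x q ≠ 0 ∧ ν.toFun (Polynomial.aeval x q) = 0 := by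
    have hdec : Polynomial.aeval x q =
        algebraMap K F (q.coeff 0) + x * Polynomial.aeval x q.divX := by
      conv_lhs => rw [← Polynomial.X_mul_divX_add q]
      rw [map_add, map_mul, Polynomial.aeval_X, Polynomial.aeval_C, add_comm]
    rcases eq_or_ne (Polynomial.aeval x q.divX) 0 with h | h
    · rw [hdec, h, mul_zero, add_zero]
      exact ⟨hcF, hK _ hc⟩
    · have hlt : ν.toFun (algebraMap K F (q.coeff 0)) <
          ν.toFun (x * Polynomial.aeval x q.divX) := by
        rw [hK _ hc, ν.map_mul' _ _ hx0 h]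
        have := key _ h
        omega
      rw [hdec]
      exact ⟨ν.add_ne_zero_of_lt hcF hlt,
        (ν.add_eq_of_lt hcF (mul_ne_zero hx0 h) hlt).trans (hK _ hc)⟩
  rw [hpq, map_mul, map_pow, Polynomial.aeval_X]
  refine ⟨mul_ne_zero (pow_ne_zero _ hx0) hval.1, ?_⟩
  rw [ν.map_mul' _ _ (pow_ne_zero _ hx0) hval.1, ν.pow_eq hx0, hval.2, add_zero]

/-- An element with a zero at `v` and a pole at `w`. -/
theorem exists_ord_pos_neg {v w : Place K F} (h : v ≠ w) :
    ∃ f : F, f ≠ 0 ∧ 0 < v.ord f ∧ w.ord f < 0 := by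
  obtain ⟨g, hgv, hgw⟩ := PlaceLemmas.exists_mem_not_mem h
  obtain ⟨k, hkw, hkv⟩ := PlaceLemmas.exists_mem_not_mem (Ne.symm h)
  have hg0 : g ≠ 0 := fun h0 => hgw (h0 ▸ zero_mem _)
  have hk0 : k ≠ 0 := fun h0 => hkv (h0 ▸ zero_mem _)
  rw [PlaceLemmas.mem_iff] at hgv hgw hkw hkv
  exact ⟨g / k, div_ne_zero hg0 hk0, by rw [PlaceLemmas.ord_div v hg0 hk0]; omega,
    by rw [PlaceLemmas.ord_div w hg0 hk0]; omega⟩

theorem exists_ord_pos_forall_neg (v : Place K F) (S : Finset (Place K F)) (hv : v ∉ S) :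
    ∃ z : F, z ≠ 0 ∧ 0 < v.ord z ∧ ∀ w ∈ S, w.ord z < 0 := by
  classical
  induction S using Finset.induction_on with
  | empty =>
    obtain ⟨f, hf0, hf⟩ := Curves.exists_ord_eq v 1
    exact ⟨f, hf0, by omega, by simp⟩
  | @insert w S hw ih =>
    rw [Finset.mem_insert, not_or] at hv
    obtain ⟨z, hz0, hzv, hzS⟩ := ih hv.2
    rcases lt_or_ge (w.ord z) 0 with hwz | hwz
    · exact ⟨z, hz0, hzv, by simp [hwz]; exact hzS⟩
    obtain ⟨y, hy0, hyv, hyw⟩ := exists_ord_pos_neg hv.1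
    obtain ⟨r, hr⟩ : ∃ r : ℕ, 0 < r ∧ ∀ s ∈ S, -s.ord z < r := by
      refine ⟨1 + S.sup (fun s => (-s.ord z).toNat), by omega, fun s hs => ?_⟩
      have h1 : (-s.ord z).toNat ≤ S.sup (fun s => (-s.ord z).toNat) :=
        Finset.le_sup (f := fun s => (-s.ord z).toNat) hs
      omega
    obtain ⟨hr0, hrS⟩ := hr
    have hyr : y ^ r ≠ 0 := pow_ne_zero r hy0
    have hwy : w.ord (y ^ r) < w.ord z := by
      rw [Curves.ord_pow]
      have : (r : ℤ) * w.ord y < 0 := mul_neg_of_pos_of_neg (by exact_mod_cast hr0) hyw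
      omega
    have hne : y ^ r + z ≠ 0 := (placeOrdFun w).add_ne_zero_of_lt hyr hwy
    refine ⟨y ^ r + z, hne, ?_, fun s hs => ?_⟩
    · have h1 := Curves.min_ord_le_ord_add v hne
      rw [Curves.ord_pow] at h1
      have : 0 < (r : ℤ) * v.ord y := mul_pos (by exact_mod_cast hr0) hyv
      omega
    rcases Finset.mem_insert.mp hs with rfl | hs
    · rw [(placeOrdFun s).add_eq_of_lt hyr hz0 hwy |> fun h => (h : s.ord (y ^ r + z) = _)]
      show s.ord (y ^ r) < 0
      rw [Curves.ord_pow]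
      exact mul_neg_of_pos_of_neg (by exact_mod_cast hr0) hyw
    have hsz := hzS s hs
    rcases lt_trichotomy (s.ord y) 0 with h | h | h
    · have h1 : s.ord (y ^ r) < s.ord z := by
        rw [Curves.ord_pow]
        have := hrS s hs
        nlinarith
      rw [show s.ord (y ^ r + z) = s.ord (y ^ r) from (placeOrdFun s).add_eq_of_lt hyr hz0 h1]
      omega
    · have h1 : s.ord z < s.ord (y ^ r) := by rw [Curves.ord_pow, h, mul_zero]; exact hsz
      rw [show s.ord (y ^ r + z) = s.ord z by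
        rw [add_comm]; exact (placeOrdFun s).add_eq_of_lt hz0 hyr h1]
      exact hsz
    · have h1 : s.ord z < s.ord (y ^ r) := by
        rw [Curves.ord_pow]
        nlinarith
      rw [show s.ord (y ^ r + z) = s.ord z by
        rw [add_comm]; exact (placeOrdFun s).add_eq_of_lt hz0 hyr h1]
      exact hsz

theorem exists_ord_pos_forall_eq_zero (v : Place K F) (S : Finset (Place K F)) (hv : v ∉ S) :
    ∃ b : F, b ≠ 0 ∧ 0 < v.ord b ∧ ∀ w ∈ S, w.ord b = 0 := by
  obtain ⟨z, hz0, hzv, hzS⟩ := exists_ord_pos_forall_neg v S hv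
  have h1v : v.ord (1 : F) < v.ord z := by simpa using hzv
  have hne : (1 : F) + z ≠ 0 := (placeOrdFun v).add_ne_zero_of_lt one_ne_zero h1v
  refine ⟨z / (1 + z), div_ne_zero hz0 hne, ?_, fun w hw => ?_⟩
  · rw [PlaceLemmas.ord_div v hz0 hne, show v.ord (1 + z) = v.ord 1 from
      (placeOrdFun v).add_eq_of_lt one_ne_zero hz0 h1v]
    simpa using hzv
  · have h2 : w.ord z < w.ord (1 : F) := by simpa using hzS w hw
    rw [PlaceLemmas.ord_div w hz0 hne, add_comm (1 : F) z,
      show w.ord (z + 1) = w.ord z from (placeOrdFun w).add_eq_of_lt hz0 one_ne_zero h2]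
    omega

end FLTA.GenusKahler
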