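import Fermat.Agent.Bridge.Degree
import Fermat.Agent.GenusKahler.OrdFun

/-!
# The embeddings of the function field of `X₀(N)` indexed by the cosets of `Γ₀(N)`

`atPoint` (into meromorphic functions on `ℍ`) and `atCusp` (into Laurent series), with their
behaviour under the action of `SL(2, ℤ)` on the cosets.
-/

set_option autoImplicit false

noncomputable section

open scoped Manifold MatrixGroups Topology
open UpperHalfPlane hiding I
open Complex Filter CongruenceSubgroup ModularCurve IntermediateField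

namespace FLTA.GenusKahler

open Bridge

/-- An element of `SL(2, ℤ)` as an element of `GL(2, ℝ)⁺`. -/
abbrev toPos (g : SL(2, ℤ)) : GL(2, ℝ)⁺ :=
  Matrix.SpecialLinearGroup.toGLPos (Matrix.SpecialLinearGroup.map (Int.castRingHom ℝ) g)

theorem toPos_smul (g : SL(2, ℤ)) (τ : ℍ) :
    ((toPos g : GL(2, ℝ)⁺) : GL (Fin 2) ℝ) • τ = g • τ := rfl

/-- Order at a point as an integer valuation. -/
def meroOrdFun (τ : ℍ) : OrdFun Mero where
  toFun := meroOrd τ
  map_mul' _ _ := meroOrd_mul τ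
  map_add' _ _ := meroOrd_add τ

/-- Order of a Laurent series as an integer valuation. -/
def laurentOrdFun : OrdFun (LaurentSeries ℂ) where
  toFun := HahnSeries.order
  map_mul' _ _ ha hb := HahnSeries.order_mul ha hb
  map_add' _ _ _ _ hab := HahnSeries.min_order_le_order_add hab

variable (N : ℕ) [NeZero N]

/-- A representative in `SL(2, ℤ)` of the inverse of a coset. -/
def repr (c : SL(2, ℤ) ⧸ Gamma0 N) : SL(2, ℤ) := c.out⁻¹

theorem apply_repr_mk (F : ModHol N) (g : SL(2, ℤ)) (τ : ℍ) :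
    (F : ℍ → ℂ) (repr N (g : SL(2, ℤ) ⧸ Gamma0 N) • τ) = (F : ℍ → ℂ) (g⁻¹ • τ) := by
  obtain ⟨γ, hγ⟩ := QuotientGroup.mk_out_eq_mul (Gamma0 N) g
  rw [repr, hγ, mul_inv_rev, mul_smul]
  exact F.2.2.1 _ (inv_mem γ.2) _

theorem apply_repr_smul (F : ModHol N) (h : SL(2, ℤ)) (c : SL(2, ℤ) ⧸ Gamma0 N) (τ : ℍ) :
    (F : ℍ → ℂ) (repr N (h • c) • τ) = (F : ℍ → ℂ) (repr N c • (h⁻¹ • τ)) := by
  induction c using QuotientGroup.induction_on with
  | _ g =>
    rw [MulAction.Quotient.smul_mk, apply_repr_mk, apply_repr_mk, smul_eq_mul, mul_inv_rev, mul_smul]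

/-- `F ↦ F ∘ g`, from modular functions to holomorphic functions. -/
def holAt (g : SL(2, ℤ)) : ModHol N →+* Hol :=
  (holSmulEquiv (toPos g) : Hol ≃ₐ[ℂ] Hol).toRingHom.comp (modHolToHol N).toRingHom

theorem holAt_apply (g : SL(2, ℤ)) (F : ModHol N) (τ : ℍ) :
    (holAt N g F : ℍ → ℂ) τ = (F : ℍ → ℂ) (g • τ) := rfl

theorem holAt_injective (g : SL(2, ℤ)) : Function.Injective (holAt N g) :=
  (holSmulEquiv (toPos g)).injective.comp (modHolToHol_injective N)

theorem toMero_algebraMap (F : ModHol N) :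
    toMero N (algebraMap (ModHol N) (ModFrac N) F) = algebraMap Hol Mero (modHolToHol N F) := by
  simp [toMero, IsFractionRing.map]

theorem qexpFrac_algebraMap (F : ModHol N) :
    qexpFrac N (algebraMap (ModHol N) (ModFrac N) F) = qexp N F :=
  IsFractionRing.lift_algebraMap (g := (qexp N).toRingHom) (qexp_injective N) F

theorem qexpFracAt_algebraMap (g : SL(2, ℤ)) (F : ModHol N) :
    qexpFracAt N g (algebraMap (ModHol N) (ModFrac N) F) = qexpAt N g F :=
  IsFractionRing.lift_algebraMap (g := (qexpAt N g).toRingHom) (qexpAt_injective N g) F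

variable {L : Type*} [Field L] [Algebra ℚ L] (emb : L →+* ℂ)

theorem evFrac_jElt {d : ℕ} [NeZero d] (hd : d ∣ N) :
    evFrac N emb (jElt N L hd) = algebraMap (ModHol N) (ModFrac N) (jAt N d hd) := by
  refine qexpFrac_injective N ?_
  rw [qexpFrac_evFrac, qexpFrac_algebraMap, qexp_jAt]
  show coeffMap emb (coeffMap (algebraMap ℚ L) _) = coeffMap (algebraMap ℚ ℂ) _
  rw [coeffMap_coeffMap]
  exact coeffMap_congr (Subsingleton.elim _ _) _

theorem evFrac_algebraMap (a : L) :
    evFrac N emb (algebraMap L (laurentBaseChange L (modularFunctionFieldFull N)) a) =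
      algebraMap (ModHol N) (ModFrac N) (algebraMap ℂ (ModHol N) (emb a)) := by
  refine qexpFrac_injective N ?_
  rw [qexpFrac_evFrac, qexpFrac_algebraMap, AlgHom.commutes]
  show coeffMap emb (algebraMap L (LaurentSeries L) a) = _
  rw [algebraMap_laurentSeries_eq_single, algebraMap_laurentSeries_eq_single, coeffMap_single]

/-- The embedding attached to a coset, into meromorphic functions on `ℍ`. -/
def atPoint (c : SL(2, ℤ) ⧸ Gamma0 N) :
    laurentBaseChange L (modularFunctionFieldFull N) →+* Mero :=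
  ((meroSmul (toPos (repr N c))).toRingHom.comp (toMero N)).comp (evFrac N emb)

/-- The embedding attached to a coset, by expansion at the corresponding cusp. -/
def atCusp (c : SL(2, ℤ) ⧸ Gamma0 N) :
    laurentBaseChange L (modularFunctionFieldFull N) →+* LaurentSeries ℂ :=
  (qexpFracAt N (repr N c)).comp (evFrac N emb)

theorem atPoint_of_evFrac_eq {c : SL(2, ℤ) ⧸ Gamma0 N}
    {f : laurentBaseChange L (modularFunctionFieldFull N)} {A B : ModHol N}
    (h : evFrac N emb f = algebraMap (ModHol N) (ModFrac N) A / algebraMap (ModHol N) (ModFrac N) B) :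
    atPoint N emb c f =
      algebraMap Hol Mero (holAt N (repr N c) A) / algebraMap Hol Mero (holAt N (repr N c) B) := by
  show meroSmul (toPos (repr N c)) (toMero N (evFrac N emb f)) = _
  rw [h, map_div₀, map_div₀, toMero_algebraMap, toMero_algebraMap, meroSmul_algebraMap,
    meroSmul_algebraMap]
  rfl

theorem atCusp_of_evFrac_eq {c : SL(2, ℤ) ⧸ Gamma0 N}
    {f : laurentBaseChange L (modularFunctionFieldFull N)} {A B : ModHol N}
    (h : evFrac N emb f = algebraMap (ModHol N) (ModFrac N) A / algebraMap (ModHol N) (ModFrac N) B) :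
    atCusp N emb c f = qexpAt N (repr N c) A / qexpAt N (repr N c) B := by
  show qexpFracAt N (repr N c) (evFrac N emb f) = _
  rw [h, map_div₀, qexpFracAt_algebraMap, qexpFracAt_algebraMap]

theorem exists_evFrac_eq (f : laurentBaseChange L (modularFunctionFieldFull N)) (hf : f ≠ 0) :
    ∃ A B : ModHol N, A ≠ 0 ∧ B ≠ 0 ∧
      evFrac N emb f = algebraMap (ModHol N) (ModFrac N) A / algebraMap (ModHol N) (ModFrac N) B := by
  obtain ⟨A, B, hB, h⟩ := IsFractionRing.div_surjective (ModHol N) (evFrac N emb f)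
  refine ⟨A, B, fun hA => ?_, nonZeroDivisors.ne_zero hB, h.symm⟩
  rw [hA, map_zero, zero_div, eq_comm, map_eq_zero] at h
  exact hf h

theorem atPoint_jElt (c : SL(2, ℤ) ⧸ Gamma0 N) {d : ℕ} [NeZero d] (hd : d ∣ N) :
    atPoint N emb c (jElt N L hd) = algebraMap Hol Mero (holAt N (repr N c) (jAt N d hd)) := by
  rw [atPoint_of_evFrac_eq N emb (A := jAt N d hd) (B := 1)
    (by rw [evFrac_jElt, map_one, div_one]), map_one, map_one, div_one]

theorem atCusp_jElt (c : SL(2, ℤ) ⧸ Gamma0 N) {d : ℕ} [NeZero d] (hd : d ∣ N) :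
    atCusp N emb c (jElt N L hd) = qexpAt N (repr N c) (jAt N d hd) := by
  rw [atCusp_of_evFrac_eq N emb (A := jAt N d hd) (B := 1)
    (by rw [evFrac_jElt, map_one, div_one]), map_one, div_one]

theorem scaleTau_one (τ : ℍ) : scaleTau 1 τ = τ := by
  ext
  simp [coe_scaleTau]

theorem jAt_one_eq : jAt N 1 (one_dvd N) = jMod N :=
  Subtype.ext (funext fun τ => congrArg jInv (scaleTau_one τ))

theorem holAt_jMod (g : SL(2, ℤ)) : holAt N g (jMod N) = modHolToHol N (jMod N) :=
  Subtype.ext (funext fun τ => jInv_smul g τ)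

theorem atPoint_jF (c : SL(2, ℤ) ⧸ Gamma0 N) :
    atPoint N emb c (jF N L) = algebraMap Hol Mero (modHolToHol N (jMod N)) := by
  rw [jF, atPoint_jElt, jAt_one_eq, holAt_jMod]

theorem atCusp_jF (c : SL(2, ℤ) ⧸ Gamma0 N) :
    atCusp N emb c (jF N L) = qexpAt N (repr N c) (jMod N) := by
  rw [jF, atCusp_jElt, jAt_one_eq]

theorem atPoint_algebraMap (c : SL(2, ℤ) ⧸ Gamma0 N) (a : L) :
    atPoint N emb c (algebraMap L (laurentBaseChange L (modularFunctionFieldFull N)) a) =
      algebraMap ℂ Mero (emb a) := by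
  rw [atPoint_of_evFrac_eq N emb (A := algebraMap ℂ (ModHol N) (emb a)) (B := 1)
    (by rw [evFrac_algebraMap, map_one, div_one]), map_one, map_one, div_one,
    IsScalarTower.algebraMap_apply ℂ Hol Mero]
  rfl

theorem atCusp_algebraMap (c : SL(2, ℤ) ⧸ Gamma0 N) (a : L) :
    atCusp N emb c (algebraMap L (laurentBaseChange L (modularFunctionFieldFull N)) a) =
      algebraMap ℂ (LaurentSeries ℂ) (emb a) := by
  rw [atCusp_of_evFrac_eq N emb (A := algebraMap ℂ (ModHol N) (emb a)) (B := 1)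
    (by rw [evFrac_algebraMap, map_one, div_one]), map_one, div_one, AlgHom.commutes]

theorem eq_of_apply_repr_eq {c c' : SL(2, ℤ) ⧸ Gamma0 N}
    (h : ∀ τ : ℍ, jInv (scaleTau N (repr N c • τ)) = jInv (scaleTau N (repr N c' • τ))) :
    c = c' := by
  rw [← c.out_eq, ← c'.out_eq]
  refine QuotientGroup.eq.mpr ?_
  simpa [repr] using eq_of_jInv_scaleTau_smul_eq N h

theorem atPoint_injective :
    Function.Injective (atPoint N emb : SL(2, ℤ) ⧸ Gamma0 N → _) := fun c c' h => by
  refine eq_of_apply_repr_eq N fun τ => ?_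
  have h1 := RingHom.congr_fun h (jElt N L (dvd_refl N))
  rw [atPoint_jElt, atPoint_jElt] at h1
  exact congrFun (congrArg (fun F : Hol => (F : ℍ → ℂ)) (IsFractionRing.injective Hol Mero h1)) τ

theorem atCusp_injective :
    Function.Injective (atCusp N emb : SL(2, ℤ) ⧸ Gamma0 N → _) := fun c c' h => by
  refine eq_of_apply_repr_eq N fun τ => ?_
  have h1 := RingHom.congr_fun h (jElt N L (dvd_refl N))
  rw [atCusp_jElt, atCusp_jElt] at h1
  exact congrFun (congrArg (fun F : HolInfty N => (F : ℍ → ℂ)) (expansion_injective N h1)) τ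

theorem meroOrd_atPoint_smul (h : SL(2, ℤ)) {τ : ℍ} (hτ : h • τ = τ)
    (c : SL(2, ℤ) ⧸ Gamma0 N) (f : laurentBaseChange L (modularFunctionFieldFull N)) :
    (meroOrdFun τ).toFun (atPoint N emb (h • c) f) = (meroOrdFun τ).toFun (atPoint N emb c f) := by
  rcases eq_or_ne f 0 with rfl | hf
  · simp
  obtain ⟨A, B, -, -, hAB⟩ := exists_evFrac_eq N emb f hf
  have hA : ∀ X : ModHol N,
      holAt N (repr N (h • c)) X = holSmulEquiv (toPos h⁻¹) (holAt N (repr N c) X) := fun X =>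
    Subtype.ext (funext fun z => apply_repr_smul N X h c z)
  rw [atPoint_of_evFrac_eq N emb hAB, atPoint_of_evFrac_eq N emb hAB, hA, hA,
    ← meroSmul_algebraMap, ← meroSmul_algebraMap, ← map_div₀]
  show meroOrd τ _ = meroOrd τ _
  rw [meroOrd_meroSmul, toPos_smul, inv_smul_eq_iff.mpr hτ.symm]

/-- Orders of functions invariant under an elliptic element with multiplier `μ`. -/
theorem multiplier_zpow_atPoint {h : SL(2, ℤ)} {τ : ℍ} (hτ : h • τ = τ)
    {c : SL(2, ℤ) ⧸ Gamma0 N} (hc : h • c = c)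
    {μ : ℂ} (hμ : ((((h 1 0 : ℤ) : ℂ) * (τ : ℂ) + ((h 1 1 : ℤ) : ℂ)) ^ 2)⁻¹ = μ)
    (hpow : ∀ (F : ℍ → ℂ), F ∈ Hol → F ≠ 0 → (∀ z, F (h • z) = F z) → μ ^ ordAt τ F = 1)
    (f : laurentBaseChange L (modularFunctionFieldFull N)) (hf : f ≠ 0) :
    μ ^ (meroOrdFun τ).toFun (atPoint N emb c f) = 1 := by
  obtain ⟨A, B, hA0, hB0, hAB⟩ := exists_evFrac_eq N emb f hf
  have hz : ∀ X : ModHol N, X ≠ 0 → μ ^ ordAt τ (holAt N (repr N c) X : ℍ → ℂ) = 1 := by
    intro X hX
    refine hpow _ (holAt N (repr N c) X).2 (fun h0 => ?_) fun z => ?_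
    · exact hX (holAt_injective N (repr N c) (by rw [map_zero]; exact Subtype.ext h0))
    · have h1 := apply_repr_smul N X h c (h • z)
      rw [hc, inv_smul_smul] at h1
      exact h1
  have hμ0 : μ ≠ 0 := by
    intro h0
    rw [h0, inv_eq_zero, sq_eq_zero_iff] at hμ
    have h2 := coe_specialLinearGroup_apply h τ
    simp only [algebraMap_int_eq, eq_intCast, ofReal_intCast, hμ, div_zero] at h2
    exact ne_zero (h • τ) h2
  rw [atPoint_of_evFrac_eq N emb hAB]
  show μ ^ meroOrd τ _ = 1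
  rw [meroOrd_div τ (fun h0 => hA0 (holAt_injective N _ (by rw [h0, map_zero])))
    (fun h0 => hB0 (holAt_injective N _ (by rw [h0, map_zero]))), zpow_sub₀ hμ0, zpow_natCast,
    zpow_natCast, hz A hA0, hz B hB0, div_one]

theorem T_zpow_neg_smul (t : ℤ) (z : ℍ) :
    (ModularGroup.T ^ t)⁻¹ • z = ((-t : ℤ) : ℝ) +ᵥ z := by
  rw [← zpow_neg, modular_T_zpow_smul]

theorem coeff_qexpAt_T_smul (X : ModHol N) (t : ℤ) (c : SL(2, ℤ) ⧸ Gamma0 N) (m : ℤ) :
    (qexpAt N (repr N (ModularGroup.T ^ t • c)) X).coeff m =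
      Complex.exp (2 * Real.pi * Complex.I * m * ((-t : ℤ) : ℝ) / N) *
        (qexpAt N (repr N c) X).coeff m := by
  have hfun : (fun τ : ℍ => (X : ℍ → ℂ) (repr N (ModularGroup.T ^ t • c) • τ)) =
      fun τ : ℍ => (X : ℍ → ℂ) (repr N c • (((-t : ℤ) : ℝ) +ᵥ τ)) := funext fun τ => by
    rw [apply_repr_smul, T_zpow_neg_smul]
  show (expansionFun N (fun τ : ℍ => (X : ℍ → ℂ) (repr N (ModularGroup.T ^ t • c) • τ))).coeff m =
    _ * (expansionFun N (fun τ : ℍ => (X : ℍ → ℂ) (repr N c • τ))).coeff m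
  rw [hfun]
  exact coeff_expansion_translate N (comp_slash_mem_holInfty N (repr N c) X.2) _ m

theorem order_eq_of_coeff_smul {a b : LaurentSeries ℂ} (u : ℤ → ℂ) (hu : ∀ m, u m ≠ 0)
    (h : ∀ m, a.coeff m = u m * b.coeff m) : a.order = b.order := by
  rcases eq_or_ne b 0 with rfl | hb
  · have ha : a = 0 := by ext m; simp [h m]
    rw [ha]
  have ha : a.coeff b.order ≠ 0 := by
    rw [h]
    exact mul_ne_zero (hu _) (mt HahnSeries.coeff_order_eq_zero.mp hb)
  have ha0 : a ≠ 0 := fun h0 => ha (by simp [h0])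
  refine le_antisymm (HahnSeries.order_le_of_coeff_ne_zero ha)
    ((HahnSeries.le_order_iff_forall ha0).mpr fun j hj => ?_)
  rw [h, HahnSeries.coeff_eq_zero_of_lt_order hj, mul_zero]

theorem order_atCusp_T_smul (c : SL(2, ℤ) ⧸ Gamma0 N)
    (f : laurentBaseChange L (modularFunctionFieldFull N)) :
    laurentOrdFun.toFun (atCusp N emb (ModularGroup.T • c) f) =
      laurentOrdFun.toFun (atCusp N emb c f) := by
  rcases eq_or_ne f 0 with rfl | hf
  · simp
  obtain ⟨A, B, hA0, hB0, hAB⟩ := exists_evFrac_eq N emb f hf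
  have hne : ∀ (g : SL(2, ℤ)) {X : ModHol N}, X ≠ 0 → qexpAt N g X ≠ 0 := fun g X hX h0 =>
    hX (qexpAt_injective N g (by rw [h0, map_zero]))
  have hX : ∀ X : ModHol N, laurentOrdFun.toFun (qexpAt N (repr N (ModularGroup.T • c)) X) =
      laurentOrdFun.toFun (qexpAt N (repr N c) X) := fun X =>
    order_eq_of_coeff_smul (fun m => Complex.exp (2 * Real.pi * Complex.I * m * ((-1 : ℤ) : ℝ) / N))
      (fun m => Complex.exp_ne_zero _) fun m => by
        simpa using coeff_qexpAt_T_smul N X 1 c m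
  rw [atCusp_of_evFrac_eq N emb hAB, atCusp_of_evFrac_eq N emb hAB,
    laurentOrdFun.div_eq (hne _ hA0) (hne _ hB0), laurentOrdFun.div_eq (hne _ hA0) (hne _ hB0),
    hX, hX]

/-- The order at a cusp of width dividing `p`, times `p`, is a multiple of `N`. -/
theorem dvd_mul_order_atCusp {c : SL(2, ℤ) ⧸ Gamma0 N} {p : ℕ}
    (hp : ModularGroup.T ^ (p : ℤ) • c = c)
    (f : laurentBaseChange L (modularFunctionFieldFull N)) (hf : f ≠ 0) :
    (N : ℤ) ∣ (p : ℤ) * laurentOrdFun.toFun (atCusp N emb c f) := by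
  obtain ⟨A, B, hA0, hB0, hAB⟩ := exists_evFrac_eq N emb f hf
  have hne : ∀ (g : SL(2, ℤ)) {X : ModHol N}, X ≠ 0 → qexpAt N g X ≠ 0 := fun g X hX h0 =>
    hX (qexpAt_injective N g (by rw [h0, map_zero]))
  have hX : ∀ X : ModHol N, X ≠ 0 →
      (N : ℤ) ∣ (p : ℤ) * laurentOrdFun.toFun (qexpAt N (repr N c) X) := by
    intro X hX
    show (N : ℤ) ∣ (p : ℤ) * (qexpAt N (repr N c) X).order
    set m := (qexpAt N (repr N c) X).order
    have h1 := coeff_qexpAt_T_smul N X (p : ℤ) c m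
    rw [hp] at h1
    have hcoef : (qexpAt N (repr N c) X).coeff m ≠ 0 :=
      mt HahnSeries.coeff_order_eq_zero.mp (hne _ hX)
    have h2 : Complex.exp (2 * Real.pi * Complex.I * m * ((-(p : ℤ) : ℤ) : ℝ) / N) = 1 :=
      mul_right_cancel₀ hcoef (h1.symm.trans (one_mul _).symm)
    obtain ⟨k, hk⟩ := Complex.exp_eq_one_iff.mp h2
    refine ⟨-k, ?_⟩
    have hN : (N : ℂ) ≠ 0 := Nat.cast_ne_zero.mpr (NeZero.ne N)
    rw [div_eq_iff hN] at hk
    push_cast at hk
    have h3 : ((p : ℤ) * m : ℤ) = ((N : ℤ) * -k : ℤ) := by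
      have h4 : ((((p : ℤ) * m : ℤ)) : ℂ) = ((((N : ℤ) * -k : ℤ)) : ℂ) := by
        push_cast
        refine mul_left_cancel₀ Complex.two_pi_I_ne_zero ?_
        linear_combination -hk
      exact_mod_cast h4
    exact h3
  rw [atCusp_of_evFrac_eq N emb hAB, laurentOrdFun.div_eq (hne _ hA0) (hne _ hB0), mul_sub]
  exact dvd_sub (hX A hA0) (hX B hB0)

end FLTA.GenusKahler
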