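import Fermat.Agent.Dim.LevelOne
import Fermat.Agent.Bridge.JBasic

/-!
# Local multiplicities of `j` at the points of the upper half plane
-/

set_option autoImplicit false

noncomputable section

open UpperHalfPlane hiding I
open Complex Filter Topology ModularForm EisensteinSeries
open scoped MatrixGroups ModularForm Manifold

namespace FLTA.GenusKahler

open Bridge

theorem jFun_eq_jC : jFun = Dim.jC := by
  funext w
  simp [jFun, Dim.jC, jInv]

theorem jInv_eq_jH : jInv = Dim.jH := by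
  funext w
  rfl

theorem analyticOrderAt_form_ofComplex {F : ℍ → ℂ} (hF : MDiff F) {τ : ℍ} (h0 : F τ = 0)
    (hd : deriv (F ∘ ofComplex) (τ : ℂ) ≠ 0) :
    analyticOrderAt (F ∘ ofComplex) (τ : ℂ) = 1 := by
  have ha : AnalyticAt ℂ (F ∘ ofComplex) (τ : ℂ) :=
    (UpperHalfPlane.mdifferentiable_iff.mp hF).analyticAt
      (isOpen_upperHalfPlaneSet.mem_nhds τ.im_pos)
  exact ha.analyticOrderAt_eq_one_of_zero_deriv_ne_zero (by simp [h0]) hd

/-- Away from the zeros of `E₄` and `E₆` the value of `j` is taken once. -/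
theorem analyticOrderAt_jFun_sub_regular {τ : ℍ} (h4 : E₄ τ ≠ 0) (h6 : E₆ τ ≠ 0) :
    analyticOrderAt (fun z => jFun z - jInv τ) (τ : ℂ) = 1 := by
  have ha : AnalyticAt ℂ jFun (τ : ℂ) := analyticAt_jFun τ.im_pos
  have h := ha.analyticOrderAt_sub_eq_one_of_deriv_ne_zero
    (by rw [jFun_eq_jC]; exact Dim.deriv_jC_ne_zero τ h4 h6)
  rwa [jFun_coe] at h

theorem analyticAt_inv_discriminant (τ : ℍ) :
    AnalyticAt ℂ (fun z => (ModularForm.discriminant (ofComplex z))⁻¹) (τ : ℂ) := by
  have hD : AnalyticAt ℂ (ModularForm.discriminant ∘ ofComplex) (τ : ℂ) :=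
    (UpperHalfPlane.mdifferentiable_iff.mp
      (ModularFormClass.holo CuspForm.discriminant)).analyticAt
      (isOpen_upperHalfPlaneSet.mem_nhds τ.im_pos)
  exact hD.inv (by simp [discriminant_ne_zero])

theorem analyticOrderAt_inv_discriminant (τ : ℍ) :
    analyticOrderAt (fun z => (ModularForm.discriminant (ofComplex z))⁻¹) (τ : ℂ) = 0 := by
  rw [(analyticAt_inv_discriminant τ).analyticOrderAt_eq_zero]
  simp [discriminant_ne_zero]

/-- At a zero of `E₄` the invariant vanishes to order three. -/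
theorem analyticOrderAt_jFun_E4_zero {τ : ℍ} (h4 : E₄ τ = 0) :
    analyticOrderAt (fun z => jFun z - 0) (τ : ℂ) = 3 := by
  have ha : AnalyticAt ℂ ((E₄ : ℍ → ℂ) ∘ ofComplex) (τ : ℂ) :=
    (UpperHalfPlane.mdifferentiable_iff.mp (ModularFormClass.holo E₄)).analyticAt
      (isOpen_upperHalfPlaneSet.mem_nhds τ.im_pos)
  have h1 := analyticOrderAt_form_ofComplex (ModularFormClass.holo E₄) h4 (Dim.deriv_E4_ne_zero h4)
  have hfun : (fun z => jFun z - 0) = (((E₄ : ℍ → ℂ) ∘ ofComplex) ^ 3) *
      fun z => (ModularForm.discriminant (ofComplex z))⁻¹ := by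
    funext z
    simp [jFun, jInv, div_eq_mul_inv]
  rw [hfun, analyticOrderAt_mul (ha.pow 3) (analyticAt_inv_discriminant τ),
    analyticOrderAt_pow ha, h1, analyticOrderAt_inv_discriminant]
  simp

/-- At a zero of `E₆` the value `1728` is taken twice. -/
theorem analyticOrderAt_jFun_E6_zero {τ : ℍ} (h6 : E₆ τ = 0) :
    analyticOrderAt (fun z => jFun z - 1728) (τ : ℂ) = 2 := by
  have ha : AnalyticAt ℂ ((E₆ : ℍ → ℂ) ∘ ofComplex) (τ : ℂ) :=
    (UpperHalfPlane.mdifferentiable_iff.mp (ModularFormClass.holo E₆)).analyticAt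
      (isOpen_upperHalfPlaneSet.mem_nhds τ.im_pos)
  have h1 := analyticOrderAt_form_ofComplex (ModularFormClass.holo E₆) h6 (Dim.deriv_E6_ne_zero h6)
  have hfun : (fun z => jFun z - 1728) = (((E₆ : ℍ → ℂ) ∘ ofComplex) ^ 2) *
      fun z => (ModularForm.discriminant (ofComplex z))⁻¹ := by
    funext z
    have hne := discriminant_ne_zero (ofComplex z)
    simp only [jFun, jInv, Function.comp_apply, Pi.mul_apply, Pi.pow_apply]
    field_simp
    rw [discriminant_eq_E₄_cube_sub_E₆_sq]
    ring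
  rw [hfun, analyticOrderAt_mul (ha.pow 2) (analyticAt_inv_discriminant τ),
    analyticOrderAt_pow ha, h1, analyticOrderAt_inv_discriminant]
  simp

end FLTA.GenusKahler
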