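import Fermat.Agent.GenusKahler.FibreCount
import Fermat.Agent.Curves.BasicCurve

/-!
# Zeros of a function as orbits on a set of embeddings
-/

set_option autoImplicit false

noncomputable section

open scoped IntermediateField
open AlgebraicCurve

namespace FLTA.GenusKahler

variable {K F : Type*} [Field K] [Field F] [Algebra K F]

theorem adjoin_simple_inv (x : F) : K⟮x⁻¹⟯ = K⟮x⟯ :=
  le_antisymm (IntermediateField.adjoin_simple_le_iff.mpr
      (inv_mem (IntermediateField.mem_adjoin_simple_self K x)))
    (IntermediateField.adjoin_simple_le_iff.mpr (by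
      simpa using inv_mem (IntermediateField.mem_adjoin_simple_self K x⁻¹)))

theorem adjoin_simple_sub_const (x : F) (a : K) : K⟮x - algebraMap K F a⟯ = K⟮x⟯ :=
  le_antisymm (IntermediateField.adjoin_simple_le_iff.mpr
      (sub_mem (IntermediateField.mem_adjoin_simple_self K x) (IntermediateField.algebraMap_mem _ a)))
    (IntermediateField.adjoin_simple_le_iff.mpr (by
      have h := add_mem (IntermediateField.mem_adjoin_simple_self K (x - algebraMap K F a))
        (IntermediateField.algebraMap_mem K⟮x - algebraMap K F a⟯ a)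
      rwa [sub_add_cancel] at h))

/-- The divisor of zeros, and its degree. -/
theorem exists_zeroDivisor [IsAlgClosed K] [CharZero K] [Curves.IsSepFunctionField K F] {x : F}
    (hx : Transcendental K x) [Module.Finite K⟮x⟯ F] :
    ∃ D : Divisor K F, (∀ v : Place K F, D v = max (v.ord x) 0) ∧
      ∑ v ∈ D.support, D v = (Module.finrank K⟮x⟯ F : ℤ) := by
  have hx0 : x ≠ 0 := fun h => hx (h ▸ isAlgebraic_zero)
  obtain ⟨D₀, hD₀, -⟩ := HasPrincipalDivisors.exists_divisor (K := K) x hx0
  refine ⟨D₀.mapRange (fun n => max n 0) (by simp), fun v => by simp [hD₀], ?_⟩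
  have hxi : Transcendental K x⁻¹ := fun h => hx (by simpa using h.inv)
  have : CharZero K⟮x⁻¹⟯ := charZero_of_injective_algebraMap (algebraMap K _).injective
  have : Module.Finite K⟮x⁻¹⟯ F := Curves.finite_adjoin_of_transcendental hxi
  have : Algebra.IsAlgebraic K⟮x⁻¹⟯ F := Algebra.IsAlgebraic.of_finite _ _
  have h := Curves.degree_polarDivisor (K := K) hxi (D := D₀.mapRange (fun n => max n 0) (by simp))
    (fun v => by simp [hD₀, v.ord_inv])
  rw [adjoin_simple_inv] at h
  rw [← h]
  simp only [Divisor.degree, Finsupp.liftAddHom_apply, AddMonoidHom.coe_mulRight]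
  rw [Finsupp.sum]
  refine Finset.sum_congr rfl fun v _ => ?_
  rw [IsCurveOver.deg_eq_one_of_isAlgClosed, Nat.cast_one, mul_one]

section Orbits

variable [IsAlgClosed K] [CharZero K] [Curves.IsSepFunctionField K F] {L : Type*} [Field L]
variable {G X : Type*} [Group G] [MulAction G X] [Fintype X]

/-- If an element `h` permutes `[F : K(x)]` embeddings into a valued field, compatibly with the
valuation, then the zeros of `x` correspond to the orbits of `h`. -/
theorem exists_zeros_orbits {x : F} (hx : Transcendental K x) [Module.Finite K⟮x⟯ F]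
    (ι : X → F →+* L) (w : OrdFun L) (hinj : Function.Injective ι)
    (hιK : ∀ i j (c : K), ι i (algebraMap K F c) = ι j (algebraMap K F c))
    (hιx : ∀ i j, ι i x = ι j x) (hcard : Fintype.card X = Module.finrank K⟮x⟯ F)
    (hwK : ∀ i (c : K), c ≠ 0 → w.toFun (ι i (algebraMap K F c)) = 0)
    {E : ℤ} (hE : 0 < E) (hwx : ∀ i, w.toFun (ι i x) = E) (h : G)
    (hperm : ∀ i (f : F), w.toFun (ι (h • i) f) = w.toFun (ι i f))
    (hdiv : ∀ i (f : F), f ≠ 0 →
      E ∣ (Function.minimalPeriod (h • ·) i : ℤ) * w.toFun (ι i f)) :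
    ∃ Z : Finset (Place K F), (∀ v, v ∈ Z ↔ 0 < v.ord x) ∧
      ∑ v ∈ Z, v.ord x = (Module.finrank K⟮x⟯ F : ℤ) ∧
      Z.card = Nat.card (MulAction.orbitRel.Quotient (Subgroup.zpowers h) X) := by
  classical
  obtain ⟨D, hD, hdeg⟩ := exists_zeroDivisor (K := K) hx
  set H := Subgroup.zpowers h
  let cls : X → MulAction.orbitRel.Quotient H X := Quotient.mk''
  have : Fintype (MulAction.orbitRel.Quotient H X) := Fintype.ofFinite _
  have horbit : ∀ i j : X, cls i = cls j ↔ i ∈ MulAction.orbit H j := fun i j => by
    rw [Quotient.eq'', MulAction.orbitRel_apply]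
  have hrel : ∀ i j, cls i = cls j → ∀ f : F, w.toFun (ι i f) = w.toFun (ι j f) := by
    intro i j hij f
    obtain ⟨⟨g, hg⟩, rfl⟩ := (horbit i j).mp hij
    obtain ⟨m, rfl⟩ := Subgroup.mem_zpowers_iff.mp hg
    show w.toFun (ι ((h ^ m) • j) f) = _
    clear hij hg
    induction m using Int.induction_on with
    | zero => rw [zpow_zero, one_smul]
    | succ k ih =>
      rw [add_comm, zpow_one_add, mul_smul, hperm]
      exact ih
    | pred k ih =>
      rw [← hperm, ← mul_smul, ← zpow_one_add, add_sub_cancel]
      exact ih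
  have hfib : ∀ i, (Finset.univ.filter fun j => cls j = cls i).card
      = Function.minimalPeriod (h • ·) i := by
    intro i
    rw [MulAction.minimalPeriod_eq_card, ← Fintype.card_subtype]
    exact Fintype.card_congr (Equiv.subtypeEquivRight fun j => horbit j i)
  have hsupp : ∀ v, v ∈ D.support ↔ 0 < v.ord x := fun v => by
    rw [Finsupp.mem_support_iff, hD]
    omega
  refine ⟨D.support, hsupp, ?_, ?_⟩
  · rw [← hdeg]
    refine Finset.sum_congr rfl fun v hv => ?_
    rw [hD, max_eq_left ((hsupp v).mp hv).le]
  rw [Nat.card_eq_fintype_card]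
  exact card_zeros_eq_card_classes ι w (fun h0 => hx (by rw [h0]; exact isAlgebraic_zero)) hinj hιK hιx hcard hwK
    hE hwx cls Quotient.mk''_surjective hrel
    (fun i f hf => by rw [hfib]; exact hdiv i f hf) D hD hdeg

end Orbits

/-- An element of prime order: points and orbits. -/
theorem card_orbits_of_prime {G X : Type*} [Group G] [MulAction G X] [Fintype X] (h : G) {E : ℕ}
    (hE : E.Prime) (hper : ∀ i : X, (h ^ E) • i = i) :
    E * Nat.card (MulAction.orbitRel.Quotient (Subgroup.zpowers h) X) =
      Fintype.card X + (E - 1) * Nat.card {i : X // h • i = i} := by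
  classical
  set H := Subgroup.zpowers h
  let O := MulAction.orbitRel.Quotient H X
  let cls : X → O := Quotient.mk''
  have : Fintype O := Fintype.ofFinite _
  have horbit : ∀ i j : X, cls i = cls j ↔ i ∈ MulAction.orbit H j := fun i j => by
    rw [Quotient.eq'', MulAction.orbitRel_apply]
  have hfib : ∀ i, (Finset.univ.filter fun j => cls j = cls i).card
      = Function.minimalPeriod (h • ·) i := by
    intro i
    rw [MulAction.minimalPeriod_eq_card, ← Fintype.card_subtype]
    exact Fintype.card_congr (Equiv.subtypeEquivRight fun j => horbit j i)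
  have hsize : ∀ i, Function.minimalPeriod (h • ·) i = 1 ∨
      Function.minimalPeriod (h • ·) i = E := fun i =>
    (Nat.dvd_prime hE).mp (Function.IsPeriodicPt.minimalPeriod_dvd (by
      show ((h • ·) : X → X)^[E] i = i
      rw [smul_iterate]
      exact hper i))
  have key : ∀ o : O, E = (Finset.univ.filter fun j => cls j = o).card +
      (E - 1) * ((Finset.univ.filter fun j => h • j = j).filter fun j => cls j = o).card := by
    intro o
    obtain ⟨i, rfl⟩ := Quotient.mk''_surjective o
    show E = (Finset.univ.filter fun j => cls j = cls i).card + _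
    have hj : ∀ j, cls j = cls i →
        (h • j = j ↔ Function.minimalPeriod (h • ·) i = 1) := by
      intro j hj
      rw [← hfib, ← hj, hfib, Function.minimalPeriod_eq_one_iff_isFixedPt]
      rfl
    rw [hfib, Finset.filter_filter]
    rcases hsize i with h1 | h1
    · rw [Finset.filter_congr (q := fun j => cls j = cls i) fun j _ =>
        ⟨fun h2 => h2.2, fun h2 => ⟨(hj j h2).mpr h1, h2⟩⟩, hfib, h1]
      have := hE.one_le
      omega
    · rw [Finset.filter_eq_empty_iff.mpr fun j _ h2 => ?_, Finset.card_empty, mul_zero, add_zero, h1]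
      have h3 := (hj j h2.2).mp h2.1
      rw [h1] at h3
      exact hE.ne_one h3
  have hsum := Finset.sum_congr rfl (s₁ := (Finset.univ : Finset O)) fun o _ => key o
  rw [Finset.sum_const, Finset.sum_add_distrib, ← Finset.mul_sum, smul_eq_mul, mul_comm,
    ← Finset.card_eq_sum_card_fiberwise (fun _ _ => Finset.mem_univ _),
    ← Finset.card_eq_sum_card_fiberwise (fun _ _ => Finset.mem_univ _)] at hsum
  rw [Nat.card_eq_fintype_card, Nat.card_eq_fintype_card, Fintype.card_subtype]
  exact hsum

end FLTA.GenusKahler
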