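import Fermat.Agent.Bridge.Hol

/-!
# Order of a holomorphic function invariant under an elliptic rotation
-/

set_option autoImplicit false

noncomputable section

open scoped Manifold MatrixGroups Topology
open UpperHalfPlane hiding I
open Complex Filter

namespace FLTA.GenusKahler

open Bridge

/-- If `f` is invariant under a map fixing `z₀` with multiplier `μ`, then `μ ^ ord f = 1`. -/
theorem deriv_pow_analyticOrderNatAt_eq_one {f φ : ℂ → ℂ} {z₀ : ℂ} (hf : AnalyticAt ℂ f z₀)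
    (hf0 : analyticOrderAt f z₀ ≠ ⊤) (hφ : DifferentiableAt ℂ φ z₀) (hfix : φ z₀ = z₀)
    (hinv : ∀ᶠ z in 𝓝 z₀, f (φ z) = f z) :
    deriv φ z₀ ^ analyticOrderNatAt f z₀ = 1 := by
  set a := analyticOrderNatAt f z₀
  obtain ⟨g, hg, hg0, hfg⟩ := (hf.analyticOrderNatAt_eq_iff hf0).mp (rfl : a = a)
  have htend : Tendsto φ (𝓝 z₀) (𝓝 z₀) := by
    simpa [hfix] using hφ.continuousAt.tendsto
  have hev : ∀ᶠ z in 𝓝[≠] z₀, dslope φ z₀ z ^ a * g (φ z) = g z := by
    filter_upwards [nhdsWithin_le_nhds (hfg.and ((htend.eventually hfg).and hinv)),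
      self_mem_nhdsWithin] with z hz hne
    obtain ⟨h1, h2, h3⟩ := hz
    have hne' : z - z₀ ≠ 0 := sub_ne_zero.mpr hne
    have hsl := sub_smul_dslope φ z₀ z
    rw [hfix, smul_eq_mul] at hsl
    rw [smul_eq_mul] at h1 h2
    rw [h2, ← hsl, mul_pow, mul_assoc, h1] at h3
    exact mul_left_cancel₀ (pow_ne_zero a hne') h3
  have hc1 : ContinuousAt (fun z => dslope φ z₀ z ^ a * g (φ z)) z₀ :=
    ((continuousAt_dslope_same.mpr hφ).pow a).mul
      (ContinuousAt.comp (by rw [hfix]; exact hg.continuousAt) hφ.continuousAt)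
  have heq : dslope φ z₀ z₀ ^ a * g (φ z₀) = g z₀ :=
    tendsto_nhds_unique ((hc1.tendsto.mono_left nhdsWithin_le_nhds).congr' hev)
      (hg.continuousAt.tendsto.mono_left nhdsWithin_le_nhds)
  rw [dslope_same, hfix] at heq
  exact mul_right_cancel₀ hg0 (heq.trans (one_mul _).symm)

/-- A holomorphic function invariant under `g`, which fixes `τ`. -/
theorem denom_sq_zpow_ordAt_eq_one {F : ℍ → ℂ} (hF : F ∈ Hol) (hF0 : F ≠ 0) {g : SL(2, ℤ)}
    {τ : ℍ} (hfix : g • τ = τ) (hinv : ∀ z : ℍ, F (g • z) = F z) :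
    ((((g 1 0 : ℤ) : ℂ) * (τ : ℂ) + ((g 1 1 : ℤ) : ℂ)) ^ 2)⁻¹ ^ ordAt τ F = 1 := by
  set a : ℂ := ((g 0 0 : ℤ) : ℂ)
  set b : ℂ := ((g 0 1 : ℤ) : ℂ)
  set c : ℂ := ((g 1 0 : ℤ) : ℂ)
  set d : ℂ := ((g 1 1 : ℤ) : ℂ)
  have hcoe : ∀ z : ℍ, ((g • z : ℍ) : ℂ) = (a * z + b) / (c * z + d) := fun z => by
    rw [coe_specialLinearGroup_apply]
    simp [a, b, c, d]
  have hden : c * (τ : ℂ) + d ≠ 0 := by
    intro h
    have h2 := hcoe τ
    rw [h, div_zero] at h2
    exact ne_zero (g • τ) h2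
  have hdet : a * d - b * c = 1 := by
    have h := g.det_coe
    rw [Matrix.det_fin_two] at h
    simp only [a, b, c, d]
    exact_mod_cast h
  have hd : HasDerivAt (fun z : ℂ => (a * z + b) / (c * z + d)) (((c * τ + d) ^ 2)⁻¹) (τ : ℂ) := by
    have h1 : HasDerivAt (fun z : ℂ => a * z + b) a (τ : ℂ) := by
      simpa using ((hasDerivAt_id (τ : ℂ)).const_mul a).add_const b
    have h2 : HasDerivAt (fun z : ℂ => c * z + d) c (τ : ℂ) := by
      simpa using ((hasDerivAt_id (τ : ℂ)).const_mul c).add_const d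
    refine (h1.div h2 hden).congr_deriv ?_
    rw [← one_div]
    congr 1
    linear_combination hdet
  rw [← hd.deriv]
  refine deriv_pow_analyticOrderNatAt_eq_one (analyticAt_of_mem_hol hF τ)
    (analyticOrderAt_ne_top hF hF0 τ) hd.differentiableAt ?_ ?_
  · rw [← hcoe τ, hfix]
  · filter_upwards [isOpen_upperHalfPlaneSet.mem_nhds τ.im_pos] with z hz
    have h3 : (a * z + b) / (c * z + d) = ((g • (⟨z, hz⟩ : ℍ) : ℍ) : ℂ) := (hcoe ⟨z, hz⟩).symm
    simp only [Function.comp_apply, h3, ofComplex_apply, ofComplex_apply_of_im_pos hz]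
    exact hinv ⟨z, hz⟩

end FLTA.GenusKahler
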