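import Fermat.Agent.GenusKahler.Embeddings
import Fermat.Agent.GenusKahler.Rotation
import Fermat.Agent.GenusKahler.JLocal
import Fermat.Agent.GenusKahler.OrbitFibre
import Fermat.Agent.Gamma0.Counts
import Fermat.Agent.Curves.BasicModular

/-!
# The fibres of `j` on `X₀(N)`
-/

set_option autoImplicit false

noncomputable section

open scoped Manifold MatrixGroups Topology IntermediateField
open UpperHalfPlane hiding I
open Complex CongruenceSubgroup ModularCurve AlgebraicCurve ModularForm EisensteinSeries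

namespace FLTA.GenusKahler

open Bridge

section

variable (N : ℕ) [NeZero N]

instance instFiniteIndexGamma0 : Finite (SL(2, ℤ) ⧸ Gamma0 N) := by
  refine Nat.finite_of_card_ne_zero ?_
  rw [Gamma0.card_cosets_Gamma0]
  refine (Finset.sum_pos (fun d hd => ?_) ?_).ne'
  · have h := Nat.mem_divisors.mp (Finset.mem_filter.mp hd).1
    exact Nat.div_pos (Nat.le_of_dvd (Nat.pos_of_ne_zero h.2) h.1)
      (Nat.pos_of_mem_divisors (Finset.mem_filter.mp hd).1)
  · exact ⟨1, by simp [Finset.mem_filter, NeZero.ne N]⟩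

theorem neg_one_smul_coset (c : SL(2, ℤ) ⧸ Gamma0 N) : (-1 : SL(2, ℤ)) • c = c := by
  induction c using QuotientGroup.induction_on with
  | _ g =>
    rw [MulAction.Quotient.smul_mk, QuotientGroup.eq, smul_eq_mul]
    have h : ((-1 : SL(2, ℤ)) * g)⁻¹ * g = -1 := by
      rw [mul_inv_rev, show ((-1 : SL(2, ℤ)))⁻¹ = -1 from inv_eq_of_mul_eq_one_left (by simp)]
      simp
    rw [h, Gamma0_mem]
    simp

variable {L : Type*} [Field L] [Algebra ℚ L] [IsAlgClosed L] (emb : L →+* ℂ)

local notation "FN" => laurentBaseChange L (modularFunctionFieldFull N)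

include emb in
theorem charZero_base : CharZero L :=
  (RingHom.charZero_iff emb.injective).mpr inferInstance

include emb in
theorem finrank_adjoin_of_eq {x : FN} (hx : L⟮x⟯ = L⟮jF N L⟯) :
    Module.Finite L⟮x⟯ FN ∧ Module.finrank L⟮x⟯ FN = dedekindPsi N := by
  rw [hx]
  exact ⟨finite_adjoin_jF N L emb, finrank_adjoin_jF N L emb⟩

variable [CharZero L]

/-- Places over a finite value `a` of `j`, as orbits of an elliptic element `h` fixing `τ`. -/
theorem exists_zeros_jF_sub (a : L) (τ : ℍ) (hτa : jInv τ = emb a) (E : ℕ) (hE : 0 < E)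
    (hord : analyticOrderAt (fun z => jFun z - emb a) (τ : ℂ) = E)
    (h : SL(2, ℤ)) (hfix : h • τ = τ)
    (hpE : ∀ c : SL(2, ℤ) ⧸ Gamma0 N, Function.minimalPeriod (h • ·) c = 1 ∨
      Function.minimalPeriod (h • ·) c = E)
    (hμ : E ≠ 1 → IsPrimitiveRoot
      ((((h 1 0 : ℤ) : ℂ) * (τ : ℂ) + ((h 1 1 : ℤ) : ℂ)) ^ 2)⁻¹ E) :
    ∃ Z : Finset (Place L FN),
      (∀ v, v ∈ Z ↔ 0 < v.ord (jF N L - algebraMap L FN a)) ∧
      ∑ v ∈ Z, v.ord (jF N L - algebraMap L FN a) = (dedekindPsi N : ℤ) ∧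
      Z.card =
        Nat.card (MulAction.orbitRel.Quotient (Subgroup.zpowers h) (SL(2, ℤ) ⧸ Gamma0 N)) := by
  classical
  have : Fintype (SL(2, ℤ) ⧸ Gamma0 N) := Fintype.ofFinite _
  set x : FN := jF N L - algebraMap L FN a
  have hadj : L⟮x⟯ = L⟮jF N L⟯ := adjoin_simple_sub_const _ a
  obtain ⟨hfin, hrank⟩ := finrank_adjoin_of_eq N emb hadj
  have htr : Transcendental L x := fun halg => transcendental_jF N L
    (by simpa [x] using halg.add (isAlgebraic_algebraMap (A := FN) a))
  have hval : ∀ c, (meroOrdFun τ).toFun (atPoint N emb c x) = E := by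
    intro c
    have hXne : jMod N - algebraMap ℂ (ModHol N) (emb a) ≠ 0 := fun h0 => htr <| by
      have h1 : evFrac N emb x = 0 := by
        rw [map_sub, jF, evFrac_jElt, jAt_one_eq, evFrac_algebraMap, ← map_sub, h0, map_zero]
      rw [map_eq_zero] at h1
      rw [h1]
      exact isAlgebraic_zero
    have h2 : atPoint N emb c x =
        algebraMap Hol Mero (modHolToHol N (jMod N - algebraMap ℂ (ModHol N) (emb a))) /
          algebraMap Hol Mero 1 := by
      rw [map_sub, atPoint_jF, atPoint_algebraMap, map_one, div_one, map_sub, map_sub,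
        IsScalarTower.algebraMap_apply ℂ Hol Mero]
      rfl
    show meroOrd τ _ = _
    rw [h2, meroOrd_div τ (fun h0 => hXne (modHolToHol_injective N (by rw [h0, map_zero])))
      one_ne_zero]
    have h3 : ordAt τ ((modHolToHol N (jMod N - algebraMap ℂ (ModHol N) (emb a)) : Hol) : ℍ → ℂ)
        = E := by
      show (analyticOrderAt (fun z => jFun z - emb a) (τ : ℂ)).toNat = E
      rw [hord]
      rfl
    have h4 : ordAt τ (((1 : Hol) : Hol) : ℍ → ℂ) = 0 :=
      (ordAt_eq_zero_iff (1 : Hol).2 (fun h0 => one_ne_zero (Subtype.ext h0)) τ).mpr (by simp)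
    rw [h3, h4]
    simp
  have hdiv : ∀ c (f : FN), f ≠ 0 → (E : ℤ) ∣
      (Function.minimalPeriod (h • ·) c : ℤ) * (meroOrdFun τ).toFun (atPoint N emb c f) := by
    intro c f hf
    rcases hpE c with h1 | h1 <;> rw [h1]
    · rcases eq_or_ne E 1 with rfl | hE1
      · exact one_dvd _
      rw [Nat.cast_one, one_mul]
      refine ((hμ hE1).zpow_eq_one_iff_dvd _).mp ?_
      have hc : h • c = c := Function.minimalPeriod_eq_one_iff_isFixedPt.mp h1
      exact multiplier_zpow_atPoint N emb hfix hc rfl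
        (fun F hF hF0 hinv => denom_sq_zpow_ordAt_eq_one hF hF0 hfix hinv) f hf
    · exact dvd_mul_right _ _
  obtain ⟨Z, hZ, hsum, hcard⟩ := exists_zeros_orbits (K := L) htr (atPoint N emb) (meroOrdFun τ)
    (atPoint_injective N emb) (fun i j c => by rw [atPoint_algebraMap, atPoint_algebraMap])
    (fun i j => by
      simp only [x, map_sub, atPoint_jF, atPoint_algebraMap])
    (by rw [hrank, ← Gamma0.card_cosets_Gamma0, Nat.card_eq_fintype_card])
    (fun i c _ => by
      rw [atPoint_algebraMap]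
      exact meroOrd_algebraMap_const τ (emb c))
    (E := (E : ℤ)) (by exact_mod_cast hE) hval h
    (fun i f => meroOrd_atPoint_smul N emb h hfix i f) hdiv
  exact ⟨Z, hZ, by rw [hsum, hrank], hcard⟩

theorem pow_two_S : (ModularGroup.S : SL(2, ℤ)) ^ 2 = -1 := by
  ext i j
  fin_cases i <;> fin_cases j <;> simp [ModularGroup.coe_S, pow_two, Matrix.mul_apply]

theorem pow_three_ST : (ModularGroup.S * ModularGroup.T : SL(2, ℤ)) ^ 3 = -1 := by
  ext i j
  fin_cases i <;> fin_cases j <;>
    simp [ModularGroup.coe_S, ModularGroup.coe_T, pow_succ, Matrix.mul_apply]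

theorem period_of_prime {p : ℕ} (hp : p.Prime) {h : SL(2, ℤ)} (hpow : h ^ p = -1)
    (c : SL(2, ℤ) ⧸ Gamma0 N) :
    Function.minimalPeriod (h • ·) c = 1 ∨ Function.minimalPeriod (h • ·) c = p :=
  (Nat.dvd_prime hp).mp (Function.IsPeriodicPt.minimalPeriod_dvd (by
    show ((h • ·) : SL(2, ℤ) ⧸ Gamma0 N → _)^[p] c = c
    rw [smul_iterate]
    show h ^ p • c = c
    rw [hpow]
    exact neg_one_smul_coset N c))

include emb in
/-- All places over `a ≠ 0, 1728` are unramified. -/
theorem ord_eq_one_of_regular (a : L) (h0 : a ≠ 0) (h1728 : a ≠ 1728) (v : Place L FN)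
    (hv : 0 < v.ord (jF N L - algebraMap L FN a)) :
    v.ord (jF N L - algebraMap L FN a) = 1 := by
  classical
  obtain ⟨τ, hτ⟩ := jInv_surjective (emb a)
  have h4 : E₄ τ ≠ 0 := fun h => h0 (emb.injective (by
    rw [map_zero, ← hτ, jInv, h]; simp))
  have h6 : E₆ τ ≠ 0 := fun h => h1728 (emb.injective (by
    rw [map_ofNat, ← hτ, jInv_eq_jH]
    exact (Dim.jH_eq_1728_iff τ).mpr h))
  have hord : analyticOrderAt (fun z => jFun z - emb a) (τ : ℂ) = (1 : ℕ) := by
    rw [← hτ]; exact analyticOrderAt_jFun_sub_regular h4 h6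
  obtain ⟨Z, hZ, hsum, hcard⟩ := exists_zeros_jF_sub N emb a τ hτ 1 one_pos hord 1 (one_smul _ τ)
    (fun c => Or.inl (Function.minimalPeriod_eq_one_iff_isFixedPt.mpr (one_smul _ c)))
    (fun h => absurd rfl h)
  have hbij : Nat.card (MulAction.orbitRel.Quotient (Subgroup.zpowers (1 : SL(2, ℤ)))
      (SL(2, ℤ) ⧸ Gamma0 N)) = dedekindPsi N := by
    rw [← Gamma0.card_cosets_Gamma0 N]
    refine (Nat.card_congr (Equiv.ofBijective Quotient.mk'' ⟨fun i j hij => ?_,
      Quotient.mk''_surjective⟩)).symm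
    obtain ⟨⟨g, hg⟩, rfl⟩ := MulAction.orbitRel_apply.mp (Quotient.eq''.mp hij)
    rw [Subgroup.zpowers_one_eq_bot, Subgroup.mem_bot] at hg
    subst hg
    exact one_smul _ j
  have hge : ∀ w ∈ Z, 1 ≤ w.ord (jF N L - algebraMap L FN a) := fun w hw => (hZ w).mp hw
  have heq : ∑ w ∈ Z, (1 : ℤ) = ∑ w ∈ Z, w.ord (jF N L - algebraMap L FN a) := by
    rw [hsum, Finset.sum_const, hcard, hbij]
    simp
  exact ((Finset.sum_eq_sum_iff_of_le hge).mp heq v ((hZ v).mpr hv)).symm

include emb in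
/-- The fibre over `1728`. -/
theorem exists_zeros_1728 :
    ∃ Z : Finset (Place L FN), (∀ v, v ∈ Z ↔ 0 < v.ord (jF N L - algebraMap L FN 1728)) ∧
      ∑ v ∈ Z, v.ord (jF N L - algebraMap L FN 1728) = (dedekindPsi N : ℤ) ∧
      2 * Z.card = dedekindPsi N + nuTwo N := by
  classical
  have : Fintype (SL(2, ℤ) ⧸ Gamma0 N) := Fintype.ofFinite _
  have hτ : jInv UpperHalfPlane.I = emb 1728 := by
    rw [map_ofNat, jInv_eq_jH]
    exact (Dim.jH_eq_1728_iff _).mpr Dim.E6_I
  have hord : analyticOrderAt (fun z => jFun z - emb 1728) (UpperHalfPlane.I : ℂ) = (2 : ℕ) := by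
    rw [map_ofNat]; exact analyticOrderAt_jFun_E6_zero Dim.E6_I
  obtain ⟨Z, hZ, hsum, hcard⟩ := exists_zeros_jF_sub N emb 1728 UpperHalfPlane.I hτ 2 two_pos hord
    ModularGroup.S (ModularGroup.stabilizer_I.mpr (by simp))
    (fun c => period_of_prime N Nat.prime_two pow_two_S c)
    (fun _ => by
      have h : (((((ModularGroup.S : SL(2, ℤ)) 1 0 : ℤ) : ℂ) * (UpperHalfPlane.I : ℂ) +
          (((ModularGroup.S : SL(2, ℤ)) 1 1 : ℤ) : ℂ)) ^ 2)⁻¹ = -1 := by
        simp [ModularGroup.coe_S, coe_I]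
      rw [h]
      exact IsPrimitiveRoot.neg_one 0 (by norm_num))
  refine ⟨Z, hZ, hsum, ?_⟩
  rw [hcard]
  refine (card_orbits_of_prime (X := SL(2, ℤ) ⧸ Gamma0 N) ModularGroup.S Nat.prime_two
    (fun c => by rw [pow_two_S]; exact neg_one_smul_coset N c)).trans ?_
  rw [← Nat.card_eq_fintype_card, Gamma0.card_cosets_Gamma0]
  simpa using Gamma0.card_fixedBy_S N

include emb in
/-- The fibre over `0`. -/
theorem exists_zeros_zero :
    ∃ Z : Finset (Place L FN), (∀ v, v ∈ Z ↔ 0 < v.ord (jF N L - algebraMap L FN 0)) ∧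
      ∑ v ∈ Z, v.ord (jF N L - algebraMap L FN 0) = (dedekindPsi N : ℤ) ∧
      3 * Z.card = dedekindPsi N + 2 * nuThree N := by
  classical
  have : Fintype (SL(2, ℤ) ⧸ Gamma0 N) := Fintype.ofFinite _
  have hτ : jInv UpperHalfPlane.ρ = emb 0 := by
    rw [map_zero, jInv, Dim.E4_rho]
    simp
  have hord : analyticOrderAt (fun z => jFun z - emb 0) (UpperHalfPlane.ρ : ℂ) = (3 : ℕ) := by
    rw [map_zero]; exact analyticOrderAt_jFun_E4_zero Dim.E4_rho
  obtain ⟨Z, hZ, hsum, hcard⟩ := exists_zeros_jF_sub N emb 0 UpperHalfPlane.ρ hτ 3 (by norm_num)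
    hord (ModularGroup.S * ModularGroup.T) (ModularGroup.stabilizer_ρ.mpr (by simp))
    (fun c => period_of_prime N Nat.prime_three pow_three_ST c)
    (fun _ => by
      have hsq := UpperHalfPlane.ρ_sq
      set r : ℂ := (UpperHalfPlane.ρ : ℂ)
      have h3 : r ^ 3 = 1 := by linear_combination (r - 1) * hsq
      have hne1 : r ≠ 1 := fun h => by
        rw [h] at hsq
        norm_num at hsq
      have hr : IsPrimitiveRoot r 3 := by
        rw [← orderOf_eq_prime h3 hne1]
        exact IsPrimitiveRoot.orderOf r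
      have h : (((((ModularGroup.S * ModularGroup.T : SL(2, ℤ))) 1 0 : ℤ) : ℂ) * r +
          ((((ModularGroup.S * ModularGroup.T : SL(2, ℤ))) 1 1 : ℤ) : ℂ)) ^ 2 = r := by
        simp [ModularGroup.coe_S, ModularGroup.coe_T, Matrix.mul_apply]
        linear_combination hsq
      rw [h]
      exact hr.inv)
  refine ⟨Z, hZ, hsum, ?_⟩
  rw [hcard]
  refine (card_orbits_of_prime (X := SL(2, ℤ) ⧸ Gamma0 N) (ModularGroup.S * ModularGroup.T)
    Nat.prime_three (fun c => by rw [pow_three_ST]; exact neg_one_smul_coset N c)).trans ?_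
  rw [← Nat.card_eq_fintype_card, Gamma0.card_cosets_Gamma0]
  simpa using Gamma0.card_fixedBy_ST N

include emb in
/-- The poles of `j`: the cusps. -/
theorem exists_poles :
    ∃ Z : Finset (Place L FN), (∀ v, v ∈ Z ↔ v.ord (jF N L) < 0) ∧
      ∑ v ∈ Z, -v.ord (jF N L) = (dedekindPsi N : ℤ) ∧ Z.card = cuspCount N := by
  classical
  have : Fintype (SL(2, ℤ) ⧸ Gamma0 N) := Fintype.ofFinite _
  obtain ⟨hfin, hrank⟩ := finrank_adjoin_of_eq N emb (adjoin_simple_inv (K := L) (jF N L))
  have htr : Transcendental L (jF N L)⁻¹ := fun halg => transcendental_jF N L (by simpa using halg.inv)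
  have hval : ∀ c, laurentOrdFun.toFun (atCusp N emb c (jF N L)⁻¹) = (N : ℤ) := by
    intro c
    have hne : atCusp N emb c (jF N L) ≠ 0 := by
      rw [map_ne_zero]
      intro h0
      exact transcendental_jF N L (by rw [h0]; exact isAlgebraic_zero)
    rw [map_inv₀, laurentOrdFun.inv_eq hne, atCusp_jF]
    show -(qexpAt N _ (jMod N)).order = _
    rw [order_qexpAt_jMod, neg_neg]
  have hperm : ∀ (c : SL(2, ℤ) ⧸ Gamma0 N) (f : FN),
      laurentOrdFun.toFun (atCusp N emb (ModularGroup.T • c) f) =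
        laurentOrdFun.toFun (atCusp N emb c f) := order_atCusp_T_smul N emb
  obtain ⟨Z, hZ, hsum, hcard⟩ := exists_zeros_orbits (K := L) htr (atCusp N emb) laurentOrdFun
    (atCusp_injective N emb) (fun i j c => by rw [atCusp_algebraMap, atCusp_algebraMap])
    (fun i j => by
      rw [map_inv₀, map_inv₀, atCusp_jF, atCusp_jF]
      refine congrArg (fun y : LaurentSeries ℂ => y⁻¹) (congrArg (expansion N) (Subtype.ext ?_))
      funext τ
      exact (jInv_smul _ τ).trans (jInv_smul _ τ).symm)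
    (by rw [hrank, ← Gamma0.card_cosets_Gamma0, Nat.card_eq_fintype_card])
    (fun i c hc => by
      rw [atCusp_algebraMap, algebraMap_laurentSeries_eq_single]
      exact HahnSeries.order_single ((map_ne_zero emb).mpr hc))
    (E := (N : ℤ)) (by exact_mod_cast NeZero.pos N) hval ModularGroup.T hperm
    (fun c f hf => dvd_mul_order_atCusp N emb (p := Function.minimalPeriod (ModularGroup.T • ·) c)
      (by
        rw [zpow_natCast]
        have h := Function.iterate_minimalPeriod (f := (ModularGroup.T • ·)) (x := c)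
        rwa [smul_iterate] at h) f hf)
  refine ⟨Z, fun v => by rw [hZ, v.ord_inv]; omega, ?_, hcard.trans (Gamma0.card_orbits_T N)⟩
  rw [← hrank, ← hsum]
  exact Finset.sum_congr rfl fun v _ => (v.ord_inv _).symm

end

end FLTA.GenusKahler
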