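import Fermat.Agent.GenusKahler.LocalExpansion

/-!
# Order of a differential at a place, via Laurent expansions
-/

set_option autoImplicit false

noncomputable section

namespace FLTA.GenusKahler

open AlgebraicCurve

section

variable {K : Type*} [Field K]

/-- The derivative of Laurent series. -/
def lDeriv : LaurentSeries K →ₗ[K] LaurentSeries K := LaurentSeries.derivative K

theorem lDeriv_coeff (f : LaurentSeries K) (n : ℤ) :
    (lDeriv f).coeff n = ((n + 1 : ℤ) : K) * f.coeff (n + 1) := by
  simp [lDeriv, LaurentSeries.derivative_apply, LaurentSeries.hasseDeriv_coeff]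

theorem lDeriv_single (n : ℤ) (c : K) :
    lDeriv (HahnSeries.single n c) = HahnSeries.single (n - 1) ((n : K) * c) := by
  ext m
  rw [lDeriv_coeff]
  rcases eq_or_ne m (n - 1) with rfl | h
  · rw [HahnSeries.coeff_single_same, sub_add_cancel, HahnSeries.coeff_single_same]
  · rw [HahnSeries.coeff_single_of_ne (by omega), HahnSeries.coeff_single_of_ne h, mul_zero]

theorem lDeriv_single_mul (m : ℤ) (f : LaurentSeries K) :
    lDeriv (HahnSeries.single m 1 * f) =
      HahnSeries.single m 1 * lDeriv f + lDeriv (HahnSeries.single m 1) * f := by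
  ext n
  rw [lDeriv_single, lDeriv_coeff, HahnSeries.coeff_add, HahnSeries.coeff_single_mul,
    HahnSeries.coeff_single_mul, HahnSeries.coeff_single_mul, lDeriv_coeff,
    show n + 1 - m = n - m + 1 by ring, show n - (m - 1) = n - m + 1 by ring]
  push_cast
  ring

theorem lDeriv_ofPowerSeries (p : PowerSeries K) :
    lDeriv (HahnSeries.ofPowerSeries ℤ K p) =
      HahnSeries.ofPowerSeries ℤ K (PowerSeries.derivative K p) := by
  ext n
  rw [lDeriv_coeff]
  rcases le_or_gt 0 n with h | h
  · lift n to ℕ using h
    rw [HahnSeries.ofPowerSeries_apply_coeff, show ((n : ℤ) + 1) = ((n + 1 : ℕ) : ℤ) by push_cast; ring,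
      HahnSeries.ofPowerSeries_apply_coeff, PowerSeries.coeff_derivative]
    push_cast
    ring
  · have hz : ∀ (q : PowerSeries K) (k : ℤ), k < 0 → (HahnSeries.ofPowerSeries ℤ K q).coeff k = 0 := by
      intro q k hk
      rw [HahnSeries.ofPowerSeries_apply, HahnSeries.embDomain_notin_range]
      rintro ⟨m, rfl⟩
      exact absurd hk (not_lt.mpr (Int.natCast_nonneg m))
    rw [hz _ n h]
    rcases eq_or_ne n (-1) with rfl | h1
    · simp
    · rw [hz _ (n + 1) (by omega), mul_zero]

theorem lDeriv_mul (f g : LaurentSeries K) :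
    lDeriv (f * g) = f * lDeriv g + g * lDeriv f := by
  obtain ⟨a, p, rfl⟩ : ∃ a p, f = HahnSeries.single a 1 * HahnSeries.ofPowerSeries ℤ K p :=
    ⟨_, _, (LaurentSeries.single_order_mul_powerSeriesPart f).symm⟩
  obtain ⟨b, q, rfl⟩ : ∃ b q, g = HahnSeries.single b 1 * HahnSeries.ofPowerSeries ℤ K q :=
    ⟨_, _, (LaurentSeries.single_order_mul_powerSeriesPart g).symm⟩
  have key : HahnSeries.single a (1 : K) * HahnSeries.ofPowerSeries ℤ K p *
      (HahnSeries.single b 1 * HahnSeries.ofPowerSeries ℤ K q) =
      HahnSeries.single (a + b) 1 * HahnSeries.ofPowerSeries ℤ K (p * q) := by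
    rw [map_mul, mul_mul_mul_comm, HahnSeries.single_mul_single, one_mul]
  have h2 : ∀ (x y : LaurentSeries K), lDeriv (HahnSeries.single a 1) * x * (HahnSeries.single b 1 * y)
      + HahnSeries.single a 1 * x * (lDeriv (HahnSeries.single b 1) * y) =
      lDeriv (HahnSeries.single (a + b) 1) * (x * y) := by
    intro x y
    rw [lDeriv_single, lDeriv_single, lDeriv_single, Int.cast_add, add_mul, HahnSeries.single_add]
    rw [mul_mul_mul_comm, mul_mul_mul_comm (HahnSeries.single a (1 : K)),
      HahnSeries.single_mul_single, HahnSeries.single_mul_single, mul_one, mul_one, one_mul,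
      show a - 1 + b = a + b - 1 by ring, show a + (b - 1) = a + b - 1 by ring, ← add_mul]
  rw [key, lDeriv_single_mul, lDeriv_single_mul, lDeriv_single_mul, lDeriv_ofPowerSeries,
    lDeriv_ofPowerSeries, lDeriv_ofPowerSeries, Derivation.leibniz,
    map_mul (HahnSeries.ofPowerSeries ℤ K) p q, ← h2]
  simp only [smul_eq_mul, map_add, map_mul]
  rw [show (HahnSeries.single (a + b) (1 : K) : LaurentSeries K) =
    HahnSeries.single a 1 * HahnSeries.single b 1 by rw [HahnSeries.single_mul_single, one_mul]]
  ring

theorem lDeriv_C (c : K) : lDeriv (HahnSeries.C c) = 0 := by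
  rw [HahnSeries.C_apply, lDeriv_single]
  simp

theorem order_lDeriv [CharZero K] {f : LaurentSeries K} (hf : f ≠ 0) (h0 : f.order ≠ 0) :
    lDeriv f ≠ 0 ∧ (lDeriv f).order = f.order - 1 := by
  have hc : (lDeriv f).coeff (f.order - 1) ≠ 0 := by
    rw [lDeriv_coeff, sub_add_cancel]
    exact mul_ne_zero (Int.cast_ne_zero.mpr h0) (mt HahnSeries.coeff_order_eq_zero.mp hf)
  have hne : lDeriv f ≠ 0 := fun h => by simp [h] at hc
  refine ⟨hne, le_antisymm (HahnSeries.order_le_of_coeff_ne_zero hc) ?_⟩
  rw [HahnSeries.le_order_iff_forall hne]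
  intro j hj
  rw [lDeriv_coeff, HahnSeries.coeff_eq_zero_of_lt_order (by omega), mul_zero]

end

section

variable {K F : Type*} [Field K] [Field F] [Algebra K F] (v : Place K F) [RationalPlace v]

/-- The expansion of differentials at `v`. -/
theorem exists_diffExpand :
    ∃ L : Ω[F⁄K] →+ LaurentSeries K,
      (∀ (c : F) (ω : Ω[F⁄K]), L (c • ω) = expand v c * L ω) ∧
      ∀ f : F, L (KaehlerDifferential.D K F f) = lDeriv (expand v f) := by
  letI : Module F (LaurentSeries K) := Module.compHom _ (expand v)
  have smul_def : ∀ (c : F) (x : LaurentSeries K), c • x = expand v c * x := fun _ _ => rfl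
  have : IsScalarTower K F (LaurentSeries K) := ⟨fun k c x => by
    rw [smul_def, smul_def, Algebra.smul_def, map_mul, expand_algebraMap, mul_assoc,
      HahnSeries.C_mul_eq_smul]⟩
  let d : Derivation K F (LaurentSeries K) :=
    { toFun := fun f => lDeriv (expand v f)
      map_add' := fun f g => by simp only [map_add]
      map_smul' := fun k f => by
        rw [Algebra.smul_def, map_mul, expand_algebraMap, lDeriv_mul, lDeriv_C, mul_zero, add_zero,
          HahnSeries.C_mul_eq_smul]
        rfl
      map_one_eq_zero' := by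
        show lDeriv (expand v 1) = 0
        rw [map_one, ← map_one (HahnSeries.C (Γ := ℤ) (R := K)), lDeriv_C]
      leibniz' := fun f g => by
        show lDeriv (expand v (f * g)) = f • lDeriv (expand v g) + g • lDeriv (expand v f)
        rw [map_mul, lDeriv_mul, smul_def, smul_def] }
  refine ⟨d.liftKaehlerDifferential.toAddMonoidHom, fun c ω => ?_, fun f => ?_⟩
  · exact map_smul d.liftKaehlerDifferential c ω
  · exact d.liftKaehlerDifferential_comp_D f

variable [CharZero K]

theorem dCoordGenerates_of_finrank (h1 : Module.finrank F Ω[F⁄K] = 1) : v.DCoordGenerates := by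
  refine ⟨?_⟩
  obtain ⟨L, hL, hD⟩ := exists_diffExpand v
  have hne : v.dCoord ≠ 0 := fun h => by
    have := hD (unif v : F)
    rw [← dCoord_eq_D_unif, h, map_zero, expand_unif, lDeriv_single] at this
    simp at this
  refine eq_top_iff.mpr fun ω _ => ?_
  obtain ⟨c, rfl⟩ := exists_smul_eq_of_finrank_eq_one h1 hne ω
  exact Submodule.smul_mem _ _ (Submodule.mem_span_singleton_self _)

theorem ordDifferential_D (h1 : Module.finrank F Ω[F⁄K] = 1) {f : F} (hn : v.ord f ≠ 0) :
    KaehlerDifferential.D K F f ≠ 0 ∧
      v.ordDifferential (KaehlerDifferential.D K F f) = v.ord f - 1 := by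
  have hf : f ≠ 0 := fun h => hn (by simp [h])
  obtain ⟨L, hL, hD⟩ := exists_diffExpand v
  have := dCoordGenerates_of_finrank v h1
  have h := congrArg L (v.differentialCoeff_smul_dCoord (KaehlerDifferential.D K F f))
  rw [hL, dCoord_eq_D_unif, hD, hD, expand_unif, lDeriv_single] at h
  simp only [sub_self, Int.cast_one, mul_one, HahnSeries.single_zero_one] at h
  obtain ⟨h0, hord⟩ := order_lDeriv (expand_ne_zero v hf) (by rwa [order_expand v hf])
  have hcne : v.differentialCoeff (KaehlerDifferential.D K F f) ≠ 0 := fun hz => by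
    rw [hz, map_zero] at h
    exact h0 h.symm
  refine ⟨fun hz => ?_, ?_⟩
  · have := hD f
    rw [hz, map_zero] at this
    exact h0 this.symm
  · rw [Place.ordDifferential, ← order_expand v hcne, h, hord, order_expand v hf]

theorem ordDifferential_D_sub (h1 : Module.finrank F Ω[F⁄K] = 1) (f : F) (c : K)
    (hn : v.ord (f - algebraMap K F c) ≠ 0) :
    v.ordDifferential (KaehlerDifferential.D K F f) = v.ord (f - algebraMap K F c) - 1 := by
  have h := (ordDifferential_D v h1 hn).2
  rwa [map_sub, Derivation.map_algebraMap, sub_zero] at h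

end

end FLTA.GenusKahler
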