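import Fermat.Agent.GenusKahler.OrdFun

/-!
# Counting the zeros of a function by means of embeddings into a valued field
-/

set_option autoImplicit false

noncomputable section

open scoped IntermediateField

namespace FLTA.GenusKahler

open AlgebraicCurve

variable {K F : Type*} [Field K] [Field F] [Algebra K F]

/-- The place of a nontrivial integer valuation trivial on constants. -/
theorem exists_place_of_ordFun (ν : OrdFun F)
    (hK : ∀ c : K, c ≠ 0 → ν.toFun (algebraMap K F c) = 0) {x : F} (hx0 : x ≠ 0)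
    (hx : 0 < ν.toFun x) :
    ∃ v : Place K F, ∃ m : ℤ, 0 < m ∧ ∀ f : F, f ≠ 0 → ν.toFun f = m * v.ord f := by
  have hmemK : ∀ c : K, algebraMap K F c ∈ ν.ring := fun c => by
    rcases eq_or_ne c 0 with rfl | hc
    · rw [map_zero]; exact zero_mem _
    · exact (ν.mem_ring ((map_ne_zero _).mpr hc)).mpr (hK c hc).ge
  have htop : ν.ring ≠ ⊤ := fun h => by
    have h1 : x⁻¹ ∈ ν.ring := h ▸ ValuationSubring.mem_top _
    rw [ν.mem_ring (inv_ne_zero hx0), ν.inv_eq hx0] at h1
    omega
  let v : Place K F := ⟨ν.ring, hmemK, htop, ν.isPrincipalIdealRing_ring⟩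
  have hv : ∀ {f : F}, f ≠ 0 → (0 ≤ v.ord f ↔ 0 ≤ ν.toFun f) := fun {f} hf => by
    rw [← PlaceLemmas.mem_iff, ← ν.mem_ring hf]
  obtain ⟨π, hπ0, hπ⟩ := Curves.exists_ord_eq v 1
  have hpos : 0 < ν.toFun π := by
    have h1 := (hv hπ0).mp (by omega)
    refine lt_of_le_of_ne h1 fun h => ?_
    have h2 := (hv (inv_ne_zero hπ0)).mpr (by rw [ν.inv_eq hπ0, ← h]; simp)
    rw [v.ord_inv, hπ] at h2
    omega
  refine ⟨v, ν.toFun π, hpos, fun f hf => ?_⟩
  have hz : π ^ v.ord f ≠ 0 := zpow_ne_zero _ hπ0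
  have hu0 : f / π ^ v.ord f ≠ 0 := div_ne_zero hf hz
  have hvu : v.ord (f / π ^ v.ord f) = 0 := by
    rw [PlaceLemmas.ord_div v hf hz, v.ord_zpow, hπ, mul_one, sub_self]
  have h1 := (hv hu0).mp hvu.ge
  have h2 := (hv (inv_ne_zero hu0)).mp (by rw [v.ord_inv, hvu, neg_zero])
  rw [ν.inv_eq hu0] at h2
  rw [ν.div_eq hf hz, ν.zpow_eq hπ0] at h1 h2
  rw [mul_comm]
  omega

/-- On rational functions of `x` all valuations positive at `x` are proportional. -/
theorem ordFun_proportional (ν μ : OrdFun F)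
    (hνK : ∀ c : K, c ≠ 0 → ν.toFun (algebraMap K F c) = 0)
    (hμK : ∀ c : K, c ≠ 0 → μ.toFun (algebraMap K F c) = 0)
    {x : F} (hx0 : x ≠ 0) (hνx : 0 < ν.toFun x) (hμx : 0 < μ.toFun x)
    {c : F} (hc : c ∈ K⟮x⟯) (hc0 : c ≠ 0) :
    μ.toFun x * ν.toFun c = ν.toFun x * μ.toFun c := by
  obtain ⟨r, s, rfl⟩ := (IntermediateField.mem_adjoin_simple_iff K c).mp hc
  rw [div_ne_zero_iff] at hc0
  have hr : r ≠ 0 := fun h => hc0.1 (by rw [h, map_zero])
  have hs : s ≠ 0 := fun h => hc0.2 (by rw [h, map_zero])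
  rw [ν.div_eq hc0.1 hc0.2, μ.div_eq hc0.1 hc0.2,
    (ν.exists_aeval_eq_mul hνK hx0 hνx hr).2, (ν.exists_aeval_eq_mul hνK hx0 hνx hs).2,
    (μ.exists_aeval_eq_mul hμK hx0 hμx hr).2, (μ.exists_aeval_eq_mul hμK hx0 hμx hs).2]
  ring

/-- A product of linear factors with roots of value `0`. -/
theorem coeff_multiset_prod_X_sub_C {L : Type*} [Field L] (w : OrdFun L) (M : Multiset L)
    (h : ∀ r ∈ M, r ≠ 0 ∧ w.toFun r = 0) :
    (∀ k, (M.map fun r => Polynomial.X - Polynomial.C r).prod.coeff k ∈ w.ring) ∧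
      (M.map fun r => Polynomial.X - Polynomial.C r).prod.coeff 0 ≠ 0 ∧
      w.toFun ((M.map fun r => Polynomial.X - Polynomial.C r).prod.coeff 0) = 0 := by
  induction M using Multiset.induction_on with
  | empty =>
    refine ⟨fun k => ?_, ?_, ?_⟩
    · simp only [Multiset.map_zero, Multiset.prod_zero, Polynomial.coeff_one]
      split
      · exact one_mem _
      · exact zero_mem _
    · simp
    · simp [w.one_eq]
  | cons r M ih =>
    obtain ⟨h1, h2, h3⟩ := ih fun s hs => h s (Multiset.mem_cons_of_mem hs)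
    obtain ⟨hr0, hr⟩ := h r (Multiset.mem_cons_self r M)
    set P := (M.map fun r => Polynomial.X - Polynomial.C r).prod
    rw [Multiset.map_cons, Multiset.prod_cons]
    have hrm : r ∈ w.ring := (w.mem_ring hr0).mpr hr.ge
    have h0 : ((Polynomial.X - Polynomial.C r) * P).coeff 0 = -r * P.coeff 0 := by
      simp [Polynomial.mul_coeff_zero]
    refine ⟨fun k => ?_, ?_, ?_⟩
    · rcases k with _ | k
      · rw [h0]; exact mul_mem (neg_mem hrm) (h1 0)
      · rw [sub_mul, Polynomial.coeff_sub, Polynomial.coeff_X_mul, Polynomial.coeff_C_mul]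
        exact sub_mem (h1 k) (mul_mem hrm (h1 (k + 1)))
    · rw [h0]; exact mul_ne_zero (neg_ne_zero.mpr hr0) h2
    · rw [h0, w.map_mul' _ _ (neg_ne_zero.mpr hr0) h2, w.neg_eq hr0, hr, h3, add_zero]

section Main

variable [CharZero K] {L : Type*} [Field L] {x : F}
variable [Module.Finite K⟮x⟯ F] {X : Type*} [Fintype X] (ι : X → F →+* L) (w : OrdFun L)

/-- Every zero of `x` is the place of one of the embeddings. -/
theorem exists_embedding_of_zero (hx0 : x ≠ 0) (hinj : Function.Injective ι)
    (hιK : ∀ i j (c : K), ι i (algebraMap K F c) = ι j (algebraMap K F c))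
    (hιx : ∀ i j, ι i x = ι j x) (hcard : Fintype.card X = Module.finrank K⟮x⟯ F)
    (hwK : ∀ i (c : K), c ≠ 0 → w.toFun (ι i (algebraMap K F c)) = 0)
    (hwx : ∀ i, 0 < w.toFun (ι i x))
    (pl : X → Place K F) (m : X → ℤ) (hm : ∀ i, 0 < m i)
    (hpl : ∀ i (f : F), f ≠ 0 → w.toFun (ι i f) = m i * (pl i).ord f)
    (v : Place K F) (hv : 0 < v.ord x) : ∃ i, pl i = v := by
  classical
  by_contra hcon
  push Not at hcon
  obtain ⟨b, hb0, hbv, hbS⟩ :=
    exists_ord_pos_forall_eq_zero v (Finset.univ.image pl) (by simpa using hcon)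
  have hwb : ∀ i, w.toFun (ι i b) = 0 := fun i => by
    rw [hpl i b hb0, hbS (pl i) (Finset.mem_image_of_mem _ (Finset.mem_univ i)), mul_zero]
  have hne : Nonempty X := by
    rw [← Fintype.card_pos_iff, hcard]
    exact Module.finrank_pos
  obtain ⟨i₀⟩ := hne
  have hcomp : ∀ i (c : K⟮x⟯), ι i (c : F) = ι i₀ (c : F) := by
    intro i c
    obtain ⟨r, s, hc⟩ := (IntermediateField.mem_adjoin_simple_iff K (c : F)).mp c.2
    have hr : ∀ p : Polynomial K, ι i (Polynomial.aeval x p) = ι i₀ (Polynomial.aeval x p) := by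
      intro p
      rw [Polynomial.aeval_def, Polynomial.hom_eval₂, Polynomial.hom_eval₂, hιx i i₀,
        show (ι i).comp (algebraMap K F) = (ι i₀).comp (algebraMap K F) from
          RingHom.ext (hιK i i₀)]
    rw [hc, map_div₀, map_div₀, hr r, hr s]
  let k := K⟮x⟯
  let Ω := AlgebraicClosure L
  let g : k →+* L := (ι i₀).comp (algebraMap k F)
  let e : L →+* Ω := algebraMap L Ω
  letI : Algebra k Ω := (e.comp g).toAlgebra
  let ψ : X → (F →ₐ[k] Ω) := fun i =>
    { e.comp (ι i) with commutes' := fun c => congrArg e (hcomp i c) }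
  have hψ : Function.Injective ψ := fun i j hij =>
    hinj (RingHom.ext fun y => e.injective (DFunLike.congr_fun hij y))
  have : CharZero k := charZero_of_injective_algebraMap (algebraMap K k).injective
  have : Algebra.IsAlgebraic k F := Algebra.IsAlgebraic.of_finite k F
  have hbij : Function.Bijective ψ :=
    (Fintype.bijective_iff_injective_and_card ψ).2 ⟨hψ, by rw [hcard, AlgHom.card k F Ω]⟩
  set P := minpoly k b
  have hbint : IsIntegral k b := IsIntegral.of_finite k b
  have hmonic : (P.map (e.comp g)).Monic := (minpoly.monic hbint).map _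
  have hsplit := (IsAlgClosed.splits (P.map (e.comp g))).eq_prod_roots_of_monic hmonic
  have hroots : ∀ r ∈ (P.map (e.comp g)).roots, ∃ i, e (ι i b) = r := by
    intro r hr
    have h1 : r ∈ P.rootSet Ω := by
      rw [Polynomial.mem_rootSet_of_ne (minpoly.ne_zero hbint), Polynomial.aeval_def]
      rw [Polynomial.mem_roots hmonic.ne_zero, Polynomial.IsRoot.def, Polynomial.eval_map] at hr
      exact hr
    rw [← Algebra.IsAlgebraic.range_eval_eq_rootSet_minpoly] at h1
    obtain ⟨φ, rfl⟩ := h1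
    obtain ⟨i, rfl⟩ := hbij.2 φ
    exact ⟨i, rfl⟩
  have : Nonempty X := ⟨i₀⟩
  choose! pre hpre using hroots
  set M : Multiset L := ((P.map (e.comp g)).roots).map fun r => ι (pre r) b with hM
  have hPL : P.map g = (M.map fun r => Polynomial.X - Polynomial.C r).prod := by
    refine Polynomial.map_injective e e.injective ?_
    rw [Polynomial.map_map]
    conv_lhs => rw [hsplit]
    rw [Polynomial.map_multiset_prod, hM, Multiset.map_map, Multiset.map_map]
    refine congrArg Multiset.prod (Multiset.map_congr rfl fun r hr => ?_)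
    simp [Polynomial.map_sub, hpre r hr]
  obtain ⟨hco, hc0, hwc0⟩ := coeff_multiset_prod_X_sub_C w M fun r hr => by
    rw [hM, Multiset.mem_map] at hr
    obtain ⟨s, -, rfl⟩ := hr
    exact ⟨(map_ne_zero _).mpr hb0, hwb _⟩
  rw [← hPL] at hco hc0 hwc0
  simp only [Polynomial.coeff_map] at hco hc0 hwc0
  set ν := w.comap (ι i₀) with hν
  have hprop : ∀ c : k, (c : F) ≠ 0 →
      v.ord x * w.toFun (g c) = w.toFun (ι i₀ x) * v.ord (c : F) := fun c hc =>
    ordFun_proportional ν (placeOrdFun v) (hwK i₀)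
      (fun c _ => Curves.ord_algebraMap v c) hx0 (hwx i₀) hv c.2 hc
  have hwxpos := hwx i₀
  have hcoe : ∀ c : k, (c : F) ∈ v.toValuationSubring ∨ g c ∉ w.ring := by
    intro c
    rcases eq_or_ne (c : F) 0 with h | h
    · exact Or.inl (h ▸ zero_mem _)
    rw [PlaceLemmas.mem_iff, show g c = ι i₀ (c : F) from rfl, w.mem_ring ((map_ne_zero (ι i₀)).mpr h)]
    by_contra hc
    push Not at hc
    have h2 : v.ord x * w.toFun (ι i₀ (c : F)) = w.toFun (ι i₀ x) * v.ord (c : F) := hprop c h
    nlinarith [mul_nonneg hv.le hc.2, mul_neg_of_pos_of_neg hwxpos hc.1]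
  have hc0' : ((P.coeff 0 : k) : F) ≠ 0 := fun h => hc0 (by
    show ι i₀ ((P.coeff 0 : k) : F) = 0
    rw [h, map_zero])
  have hord0 : v.ord ((P.coeff 0 : k) : F) = 0 := by
    have h2 := hprop (P.coeff 0) hc0'
    rw [hwc0, mul_zero] at h2
    rcases mul_eq_zero.mp h2.symm with h | h
    · omega
    · exact h
  have hdec : b * Polynomial.aeval b P.divX + ((P.coeff 0 : k) : F) = 0 := by
    have h := minpoly.aeval k b
    rw [show minpoly k b = P from rfl] at h
    conv_lhs at h => rw [← Polynomial.X_mul_divX_add P]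
    rwa [map_add, map_mul, Polynomial.aeval_X, Polynomial.aeval_C] at h
  have hq : Polynomial.aeval b P.divX ∈ v.toValuationSubring := by
    rw [Polynomial.aeval_eq_sum_range]
    refine sum_mem fun j _ => ?_
    rw [Algebra.smul_def]
    refine mul_mem ?_ (pow_mem (PlaceLemmas.mem_of_ord_nonneg v hbv.le) j)
    rw [Polynomial.coeff_divX]
    exact (hcoe _).resolve_right (fun h => h (hco _))
  have hqne : Polynomial.aeval b P.divX ≠ 0 := fun h => by
    rw [h, mul_zero, zero_add] at hdec
    exact hc0' hdec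
  rw [eq_neg_of_add_eq_zero_right hdec, Curves.ord_neg, v.ord_mul hb0 hqne] at hord0
  have := Curves.ord_nonneg_of_mem v hq
  omega

/-- The zeros of `x` are in bijection with the classes of embeddings, and the multiplicities are
the sizes of the classes. -/
theorem exists_placeOfClass (hx0 : x ≠ 0) (hinj : Function.Injective ι)
    (hιK : ∀ i j (c : K), ι i (algebraMap K F c) = ι j (algebraMap K F c))
    (hιx : ∀ i j, ι i x = ι j x) (hcard : Fintype.card X = Module.finrank K⟮x⟯ F)
    (hwK : ∀ i (c : K), c ≠ 0 → w.toFun (ι i (algebraMap K F c)) = 0)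
    {E : ℤ} (hE : 0 < E) (hwx : ∀ i, w.toFun (ι i x) = E)
    {O : Type*} [Fintype O] [DecidableEq O] (cls : X → O) (hcls : Function.Surjective cls)
    (hrel : ∀ i j, cls i = cls j → ∀ f : F, w.toFun (ι i f) = w.toFun (ι j f))
    (hdiv : ∀ i (f : F), f ≠ 0 →
      E ∣ ((Finset.univ.filter fun j => cls j = cls i).card : ℤ) * w.toFun (ι i f))
    (D : Divisor K F) (hD : ∀ v : Place K F, D v = max (v.ord x) 0)
    (hdeg : ∑ v ∈ D.support, D v = (Module.finrank K⟮x⟯ F : ℤ)) :
    ∃ P : O → Place K F, Function.Injective P ∧ (∀ v, 0 < v.ord x ↔ ∃ o, P o = v) ∧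
      (∀ o, (P o).ord x = ((Finset.univ.filter fun j => cls j = o).card : ℤ)) ∧
      ∀ i (f : F), f ≠ 0 → ((Finset.univ.filter fun j => cls j = cls i).card : ℤ) *
        w.toFun (ι i f) = E * (P (cls i)).ord f := by
  classical
  have hplace : ∀ i, ∃ v : Place K F, ∃ m : ℤ, 0 < m ∧
      ∀ f : F, f ≠ 0 → w.toFun (ι i f) = m * v.ord f := fun i =>
    exists_place_of_ordFun (w.comap (ι i)) (hwK i) hx0
      (by rw [OrdFun.comap_apply, hwx]; exact hE)
  choose pl m hm hpl using hplace
  have hEm : ∀ i, E = m i * (pl i).ord x := fun i => by rw [← hpl i x hx0, hwx]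
  have hclsEq : ∀ i j, cls i = cls j → pl i = pl j := by
    intro i j hij
    refine Curves.place_eq_of_le fun f hf => ?_
    rcases eq_or_ne f 0 with rfl | hf0
    · exact zero_mem _
    have h := hrel i j hij f
    rw [hpl i f hf0, hpl j f hf0] at h
    rw [PlaceLemmas.mem_iff] at hf ⊢
    by_contra hn
    push Not at hn
    nlinarith [mul_nonneg (hm i).le hf, mul_neg_of_pos_of_neg (hm j) hn]
  choose rep hrep using hcls
  have hposx : ∀ i, 0 < (pl i).ord x := fun i => by
    have := hEm i
    nlinarith [hm i]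
  have hmem : ∀ i, pl i ∈ D.support := fun i => by
    rw [Finsupp.mem_support_iff, hD]
    have := hposx i
    omega
  have hbound : ∀ o, D (pl (rep o)) ≤ ((Finset.univ.filter fun j => cls j = o).card : ℤ) := by
    intro o
    obtain ⟨π, hπ0, hπ⟩ := Curves.exists_ord_eq (pl (rep o)) 1
    have h := hdiv (rep o) π hπ0
    rw [hpl _ π hπ0, hπ, mul_one, hrep o, hEm (rep o), mul_comm (m (rep o))] at h
    have h2 := Int.dvd_of_mul_dvd_mul_right (hm (rep o)).ne' h
    have hpos : 0 < ((Finset.univ.filter fun j => cls j = o).card : ℤ) := by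
      exact_mod_cast Finset.card_pos.mpr ⟨rep o, by simp [hrep]⟩
    rw [hD, max_eq_left (hposx _).le]
    exact Int.le_of_dvd hpos h2
  have hsurj : ∀ v ∈ D.support, ∃ o, pl (rep o) = v := by
    intro v hv
    rw [Finsupp.mem_support_iff, hD] at hv
    obtain ⟨i, hi⟩ := exists_embedding_of_zero ι w hx0 hinj hιK hιx hcard hwK
      (fun i => by rw [hwx]; exact hE) pl m hm hpl v (by omega)
    exact ⟨cls i, hi ▸ hclsEq _ _ (hrep _)⟩
  have hsum : ∑ o, D (pl (rep o)) ≤ ∑ v ∈ D.support, D v := by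
    rw [hdeg, ← hcard, ← Finset.card_univ,
      Finset.card_eq_sum_card_fiberwise (f := cls) (s := Finset.univ) (t := Finset.univ)
        (fun _ _ => Finset.mem_univ _)]
    push_cast
    exact Finset.sum_le_sum fun o _ => hbound o
  rw [← Finset.sum_fiberwise_of_maps_to (g := fun o => pl (rep o)) (t := D.support)
    (fun o _ => hmem _)] at hsum
  have hone : ∀ v ∈ D.support,
      (Finset.univ.filter fun o => pl (rep o) = v).card = 1 := by
    by_contra hc
    push Not at hc
    obtain ⟨v₀, hv₀, hne⟩ := hc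
    refine absurd hsum (not_le.mpr (Finset.sum_lt_sum (fun v hv => ?_) ⟨v₀, hv₀, ?_⟩))
    · rw [Finset.sum_congr rfl (g := fun _ => D v)
        (fun o ho => by rw [(Finset.mem_filter.mp ho).2]), Finset.sum_const, nsmul_eq_mul]
      obtain ⟨o, ho⟩ := hsurj v hv
      refine le_mul_of_one_le_left (by rw [hD]; exact le_max_right _ _) ?_
      exact_mod_cast Finset.card_pos.mpr ⟨o, by simp [ho]⟩
    · rw [Finset.sum_congr rfl (g := fun _ => D v₀)
        (fun o ho => by rw [(Finset.mem_filter.mp ho).2]), Finset.sum_const, nsmul_eq_mul]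
      obtain ⟨o, ho⟩ := hsurj v₀ hv₀
      have h1 : 0 < (Finset.univ.filter fun o => pl (rep o) = v₀).card :=
        Finset.card_pos.mpr ⟨o, by simp [ho]⟩
      refine lt_mul_of_one_lt_left ?_ (by exact_mod_cast (by omega : 1 < _))
      have h2 := Finsupp.mem_support_iff.mp hv₀
      rw [hD] at h2 ⊢
      omega
  have hinjP : Function.Injective fun o => pl (rep o) := by
    intro o o' h
    have h1 : (Finset.univ.filter fun p => pl (rep p) = pl (rep o)).card ≤ 1 :=
      (hone _ (hmem _)).le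
    exact (Finset.card_le_one.mp h1) o (by simp) o' (by simp [h.symm])
  have himg : Finset.univ.image (fun o => pl (rep o)) = D.support := by
    ext v
    constructor
    · intro hv
      obtain ⟨o, -, rfl⟩ := Finset.mem_image.mp hv
      exact hmem _
    · intro hv
      obtain ⟨o, rfl⟩ := hsurj v hv
      exact Finset.mem_image_of_mem _ (Finset.mem_univ o)
  have hDfib : ∀ o, (pl (rep o)).ord x = ((Finset.univ.filter fun j => cls j = o).card : ℤ) := by
    have heq : ∑ o, D (pl (rep o)) = ∑ o, ((Finset.univ.filter fun j => cls j = o).card : ℤ) := by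
      rw [← Finset.sum_image (g := fun o => pl (rep o)) (f := fun v => D v) (hinjP.injOn), himg,
        hdeg, ← hcard, ← Finset.card_univ,
        Finset.card_eq_sum_card_fiberwise (f := cls) (s := Finset.univ) (t := Finset.univ)
          (fun _ _ => Finset.mem_univ _)]
      push_cast
      rfl
    intro o
    have h := (Finset.sum_eq_sum_iff_of_le fun o _ => hbound o).mp heq o (Finset.mem_univ o)
    rwa [hD, max_eq_left (hposx _).le] at h
  refine ⟨fun o => pl (rep o), hinjP, fun v => ⟨fun hv => ?_, ?_⟩, hDfib, fun i f hf => ?_⟩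
  · exact hsurj v (by rw [Finsupp.mem_support_iff, hD]; omega)
  · rintro ⟨o, rfl⟩
    exact hposx _
  · have he : pl (rep (cls i)) = pl i := hclsEq _ _ (hrep _)
    show _ = E * (pl (rep (cls i))).ord f
    rw [← hDfib (cls i), he, hpl i f hf, hEm i]
    ring

/-- The number of zeros of `x` is the number of classes of embeddings. -/
theorem card_zeros_eq_card_classes (hx0 : x ≠ 0) (hinj : Function.Injective ι)
    (hιK : ∀ i j (c : K), ι i (algebraMap K F c) = ι j (algebraMap K F c))
    (hιx : ∀ i j, ι i x = ι j x) (hcard : Fintype.card X = Module.finrank K⟮x⟯ F)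
    (hwK : ∀ i (c : K), c ≠ 0 → w.toFun (ι i (algebraMap K F c)) = 0)
    {E : ℤ} (hE : 0 < E) (hwx : ∀ i, w.toFun (ι i x) = E)
    {O : Type*} [Fintype O] [DecidableEq O] (cls : X → O) (hcls : Function.Surjective cls)
    (hrel : ∀ i j, cls i = cls j → ∀ f : F, w.toFun (ι i f) = w.toFun (ι j f))
    (hdiv : ∀ i (f : F), f ≠ 0 →
      E ∣ ((Finset.univ.filter fun j => cls j = cls i).card : ℤ) * w.toFun (ι i f))
    (D : Divisor K F) (hD : ∀ v : Place K F, D v = max (v.ord x) 0)
    (hdeg : ∑ v ∈ D.support, D v = (Module.finrank K⟮x⟯ F : ℤ)) :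
    D.support.card = Fintype.card O := by
  classical
  obtain ⟨P, hP, hsupp, -, -⟩ := exists_placeOfClass ι w hx0 hinj hιK hιx hcard hwK hE hwx cls
    hcls hrel hdiv D hD hdeg
  rw [← Finset.card_univ, ← Finset.card_image_of_injective Finset.univ hP]
  refine congrArg Finset.card (Finset.ext fun v => ?_)
  simp only [Finsupp.mem_support_iff, hD, Finset.mem_image, Finset.mem_univ, true_and]
  rw [← hsupp]
  constructor <;> intro h <;> omega

end Main

end FLTA.GenusKahler
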