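import Fermat.Agent.GenusKahler.Differential
import Fermat.Agent.GenusKahler.Fibres
import Fermat.Agent.Dim.Genus

/-!
# The genus of `X₀(N)` from the degree of the divisor of `dj`
-/

set_option autoImplicit false

noncomputable section

open AlgebraicCurve ModularCurve

namespace FLTA.GenusKahler

section Abstract

variable {K F : Type*} [Field K] [Field F] [Algebra K F] [IsAlgClosed K] [CharZero K]
  [IsCurveOver K F]

/-- The differential of a nonconstant function. -/
theorem D_ne_zero_of_pole {f : F} {v : Place K F} (hv : v.ord f < 0) :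
    KaehlerDifferential.D K F f ≠ 0 :=
  have := rationalPlace_of_isCurveOver v
  (ordDifferential_D v IsCurveOver.finrank_kaehler hv.ne).1

/-- All canonical divisors have the degree of the divisor of any given differential. -/
theorem degree_eq_of_ne_zero [HasCanonicalDivisor (K := K) (F := F)] {ω₀ ω : Ω[F⁄K]}
    (h₀ : ω₀ ≠ 0) (h : ω ≠ 0) :
    Divisor.degree (canonicalDivisorOf h) = Divisor.degree (canonicalDivisorOf h₀) := by
  obtain ⟨c, rfl⟩ := exists_smul_eq_of_finrank_eq_one IsCurveOver.finrank_kaehler h₀ ω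
  have hc : c ≠ 0 := fun hc => h (by rw [hc, zero_smul])
  obtain ⟨Dc, hDc, hdeg⟩ := HasPrincipalDivisors.exists_divisor (K := K) c hc
  have key : canonicalDivisorOf h = Dc + canonicalDivisorOf h₀ := Finsupp.ext fun v => by
    have := rationalPlace_of_isCurveOver v
    have := dCoordGenerates_of_finrank v (IsCurveOver.finrank_kaehler (K := K) (F := F))
    rw [Finsupp.add_apply, hDc, canonicalDivisorOf_apply, canonicalDivisorOf_apply]
    refine v.ordDifferential_smul hc fun h0 => h₀ ?_
    rw [← v.differentialCoeff_smul_dCoord ω₀, h0, zero_smul]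
  rw [key, map_add, hdeg, zero_add]

/-- The degree of the divisor of `df` when `f` is unramified outside two values. -/
theorem degree_canonicalDivisorOf_D [HasCanonicalDivisor (K := K) (F := F)] {f : F} {a b : K}
    (hab : a ≠ b) (hf : KaehlerDifferential.D K F f ≠ 0)
    (Za Zb P : Finset (Place K F))
    (hZa : ∀ v, v ∈ Za ↔ 0 < v.ord (f - algebraMap K F a))
    (hZb : ∀ v, v ∈ Zb ↔ 0 < v.ord (f - algebraMap K F b))
    (hP : ∀ v, v ∈ P ↔ v.ord f < 0)
    (hunr : ∀ (c : K) (v : Place K F), c ≠ a → c ≠ b → 0 < v.ord (f - algebraMap K F c) →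
      v.ord (f - algebraMap K F c) = 1) :
    Divisor.degree (canonicalDivisorOf hf) =
      ∑ v ∈ Za, (v.ord (f - algebraMap K F a) - 1) + ∑ v ∈ Zb, (v.ord (f - algebraMap K F b) - 1)
        + ∑ v ∈ P, (v.ord f - 1) := by
  classical
  set D := canonicalDivisorOf hf
  have hDv : ∀ (v : Place K F) (c : K), v.ord (f - algebraMap K F c) ≠ 0 →
      D v = v.ord (f - algebraMap K F c) - 1 := fun v c hc => by
    have := rationalPlace_of_isCurveOver v
    rw [canonicalDivisorOf_apply]
    exact ordDifferential_D_sub v IsCurveOver.finrank_kaehler f c hc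
  have hDP : ∀ v ∈ P, D v = v.ord f - 1 := fun v hv => by
    have h := hDv v 0 (by rw [map_zero, sub_zero]; exact ((hP v).mp hv).ne)
    rwa [map_zero, sub_zero] at h
  have hexc : ∀ (v : Place K F) (c c' : K), 0 < v.ord (f - algebraMap K F c) →
      0 < v.ord (f - algebraMap K F c') → c = c' := by
    intro v c c' h h'
    by_contra hne
    have hd : algebraMap K F (c' - c) ≠ 0 := (map_ne_zero _).mpr (sub_ne_zero.mpr (Ne.symm hne))
    have hlt : v.ord (algebraMap K F (c' - c)) < v.ord (f - algebraMap K F c') := by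
      rwa [Curves.ord_algebraMap]
    have h2 := (placeOrdFun v).add_eq_of_lt hd (fun h0 => by rw [h0, v.ord_zero] at h'; omega) hlt
    rw [map_sub, show algebraMap K F c' - algebraMap K F c + (f - algebraMap K F c') =
      f - algebraMap K F c by ring] at h2
    change v.ord _ = v.ord _ at h2
    rw [← map_sub, Curves.ord_algebraMap] at h2
    omega
  have hpole : ∀ (v : Place K F) (c : K), v.ord f < 0 → ¬ 0 < v.ord (f - algebraMap K F c) := by
    intro v c h h'
    rcases eq_or_ne c 0 with rfl | hc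
    · rw [map_zero, sub_zero] at h'
      omega
    have hd : algebraMap K F c ≠ 0 := (map_ne_zero _).mpr hc
    have h2 := (placeOrdFun v).add_eq_of_lt hd
      (fun h0 => by rw [h0, v.ord_zero] at h'; omega)
      (show v.ord (algebraMap K F c) < v.ord (f - algebraMap K F c) by
        rwa [Curves.ord_algebraMap])
    rw [add_sub_cancel] at h2
    change v.ord _ = v.ord _ at h2
    rw [Curves.ord_algebraMap] at h2
    omega
  have hsupp : D.support ⊆ (Za ∪ Zb) ∪ P := by
    intro v hv
    rw [Finsupp.mem_support_iff] at hv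
    rw [Finset.mem_union, Finset.mem_union, hZa, hZb, hP]
    by_contra hc
    push Not at hc
    obtain ⟨⟨ha, hb⟩, hp⟩ := hc
    have := rationalPlace_of_isCurveOver v
    obtain ⟨c, hc⟩ := RationalPlace.residue_surj (v := v)
      (IsLocalRing.residue v.toValuationSubring ⟨f, PlaceLemmas.mem_of_ord_nonneg v hp⟩)
    have hmem : (⟨f, PlaceLemmas.mem_of_ord_nonneg v hp⟩ - algebraMap K v.toValuationSubring c :
        v.toValuationSubring) ∈ IsLocalRing.maximalIdeal v.toValuationSubring := by
      rw [← IsLocalRing.residue_eq_zero_iff, map_sub, sub_eq_zero, ← hc]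
      rfl
    rcases eq_or_ne (f - algebraMap K F c) 0 with h0 | h0
    · refine hf ?_
      rw [sub_eq_zero.mp h0, Derivation.map_algebraMap]
    have hge : 0 ≤ v.ord (f - algebraMap K F c) :=
      Curves.ord_nonneg_of_mem v
        (⟨f, PlaceLemmas.mem_of_ord_nonneg v hp⟩ - algebraMap K v.toValuationSubring c :
          v.toValuationSubring).2
    have hpos : 0 < v.ord (f - algebraMap K F c) := by
      refine lt_of_le_of_ne hge fun h => ?_
      have hinv : (f - algebraMap K F c)⁻¹ ∈ v.toValuationSubring :=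
        PlaceLemmas.mem_of_ord_nonneg v (by rw [v.ord_inv, ← h]; simp)
      exact hmem (isUnit_iff_exists_inv.mpr ⟨⟨_, hinv⟩, Subtype.ext (mul_inv_cancel₀ h0)⟩)
    have hca : c ≠ a := fun h => not_lt.mpr ha (h ▸ hpos)
    have hcb : c ≠ b := fun h => not_lt.mpr hb (h ▸ hpos)
    have h1 := hunr c v hca hcb hpos
    exact hv (by rw [hDv v c hpos.ne', h1, sub_self])
  have hdisj1 : Disjoint Za Zb := Finset.disjoint_left.mpr fun v h h' =>
    hab (hexc v a b ((hZa v).mp h) ((hZb v).mp h'))
  have hdisj2 : Disjoint (Za ∪ Zb) P := Finset.disjoint_left.mpr fun v h h' => by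
    rcases Finset.mem_union.mp h with h | h
    · exact hpole v a ((hP v).mp h') ((hZa v).mp h)
    · exact hpole v b ((hP v).mp h') ((hZb v).mp h)
  have hdeg : Divisor.degree D = ∑ v ∈ D.support, D v := by
    simp only [Divisor.degree, Finsupp.liftAddHom_apply, AddMonoidHom.coe_mulRight]
    rw [Finsupp.sum]
    refine Finset.sum_congr rfl fun v _ => ?_
    rw [IsCurveOver.deg_eq_one_of_isAlgClosed, Nat.cast_one, mul_one]
  rw [hdeg, Finset.sum_subset hsupp fun v _ h => Finsupp.notMem_support_iff.mp h,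
    Finset.sum_union hdisj2, Finset.sum_union hdisj1,
    Finset.sum_congr rfl fun v hv => hDv v a ((hZa v).mp hv).ne',
    Finset.sum_congr rfl fun v hv => hDv v b ((hZb v).mp hv).ne',
    Finset.sum_congr rfl hDP]

end Abstract

/-- The genus of `X₀(N)`. -/
theorem genus_eq_genusFormula (N : ℕ) [NeZero N]
    [HasCanonicalDivisor (K := AlgebraicClosure ℚ) (F := ↥(modularFunctionFieldBar N))] :
    (genus (AlgebraicClosure ℚ) ↥(modularFunctionFieldBar N) : ℚ) = genusFormula N := by
  classical
  let emb : AlgebraicClosure ℚ →+* ℂ := complexEmbedding.toRingHom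
  set j := Bridge.jF N (AlgebraicClosure ℚ)
  obtain ⟨Z0, hZ0, hs0, hc0⟩ := exists_zeros_zero N emb
  obtain ⟨Z1, hZ1, hs1, hc1⟩ := exists_zeros_1728 N emb
  obtain ⟨P, hP, hsP, hcP⟩ := exists_poles N emb
  obtain ⟨v, hv⟩ : P.Nonempty := by
    rw [Finset.nonempty_iff_ne_empty]
    intro h
    rw [h, Finset.card_empty] at hcP
    have hpos : 0 < cuspCount N := by
      refine Finset.sum_pos (fun d hd => Nat.totient_pos.mpr ?_) ⟨1, by simp [NeZero.ne N]⟩
      exact Nat.gcd_pos_of_pos_left _ (Nat.pos_of_mem_divisors hd)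
    omega
  have hj : KaehlerDifferential.D (AlgebraicClosure ℚ) ↥(modularFunctionFieldBar N) j ≠ 0 :=
    D_ne_zero_of_pole ((hP v).mp hv)
  have hdeg := degree_canonicalDivisorOf_D (a := (0 : AlgebraicClosure ℚ)) (b := 1728)
    (by norm_num) hj Z0 Z1 P hZ0 hZ1 hP
    (fun c w h0 h1728 h => ord_eq_one_of_regular N emb c h0 h1728 w h)
  simp only [Finset.sum_sub_distrib, Finset.sum_const, nsmul_eq_mul, mul_one] at hdeg
  rw [hs0, hs1] at hdeg
  rw [Finset.sum_neg_distrib] at hsP
  have hP' : ∑ v ∈ P, v.ord j = -(dedekindPsi N : ℤ) := neg_eq_iff_eq_neg.mp hsP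
  rw [hP', hcP] at hdeg
  obtain ⟨g, hg⟩ : ∃ g : ℕ, genusFormula N = (g : ℚ) :=
    ⟨_, (Dim.finrank_cuspForm_two_Gamma0 N).symm⟩
  have key : Divisor.degree (canonicalDivisorOf hj) + 2 = 2 * (g : ℤ) := by
    have h3 : (3 : ℚ) * Z0.card = dedekindPsi N + 2 * nuThree N := by exact_mod_cast hc0
    have h2 : (2 : ℚ) * Z1.card = dedekindPsi N + nuTwo N := by exact_mod_cast hc1
    have h4 : ((Divisor.degree (canonicalDivisorOf hj) : ℤ) : ℚ) + 2 = 2 * (g : ℚ) := by
      rw [hdeg, ← hg, genusFormula]
      push_cast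
      linarith
    exact_mod_cast h4
  have hex : ∃ ω : Ω[↥(modularFunctionFieldBar N)⁄AlgebraicClosure ℚ], ω ≠ 0 := ⟨_, hj⟩
  rw [hg, Nat.cast_inj, genus, dif_pos hex, degree_eq_of_ne_zero hj hex.choose_spec, key]
  omega

end FLTA.GenusKahler
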