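import Mathlib
import Fermat.Prelude.Def_AlgebraicCurve_IsCurveOver
import Fermat.Prelude.Def_AlgebraicCurve_CanonicalDivisor

/-!
# Laurent expansion at a place with residue field the constants
-/

set_option autoImplicit false

noncomputable section

namespace FLTA.GenusKahler

open AlgebraicCurve PowerSeries

section

variable {K F : Type*} [Field K] [Field F] [Algebra K F] (v : Place K F)

/-- A chosen uniformizer of a place, as an element of its valuation ring. -/
def unif : v.toValuationSubring :=
  (IsDiscreteValuationRing.exists_irreducible v.toValuationSubring).choose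

theorem unif_irreducible : Irreducible (unif v) :=
  (IsDiscreteValuationRing.exists_irreducible v.toValuationSubring).choose_spec

theorem ord_unif : v.ord (unif v : F) = 1 := v.ord_coe_irreducible (unif_irreducible v)

theorem unif_ne_zero : unif v ≠ 0 := (unif_irreducible v).ne_zero

theorem dCoord_eq_D_unif : v.dCoord = KaehlerDifferential.D K F (unif v : F) := rfl

/-- Constants map onto the residue field. -/
class RationalPlace : Prop where
  residue_surj : Function.Surjective (algebraMap K v.ResidueField)

theorem rationalPlace_of_isCurveOver [IsAlgClosed K] [IsCurveOver K F] : RationalPlace v := by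
  have : Module.Finite K v.ResidueField := IsCurveOver.finiteResidue v
  have : Algebra.IsIntegral K v.ResidueField := Algebra.IsIntegral.of_finite K v.ResidueField
  exact ⟨IsAlgClosed.algebraMap_bijective_of_isIntegral.2⟩

theorem exists_next [RationalPlace v] (a : v.toValuationSubring) :
    ∃ p : K × v.toValuationSubring, a = algebraMap K _ p.1 + unif v * p.2 := by
  obtain ⟨c, hc⟩ := RationalPlace.residue_surj (v := v) (IsLocalRing.residue _ a)
  have hmem : a - algebraMap K _ c ∈ IsLocalRing.maximalIdeal v.toValuationSubring := by
    rw [← IsLocalRing.residue_eq_zero_iff, map_sub, sub_eq_zero, ← hc]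
    rfl
  rw [(unif_irreducible v).maximalIdeal_eq, Ideal.mem_span_singleton] at hmem
  obtain ⟨b, hb⟩ := hmem
  exact ⟨(c, b), by rw [← hb]; ring⟩

/-- `p` is the expansion of `a` in the chosen uniformizer. -/
def IsExp (a : v.toValuationSubring) (p : PowerSeries K) : Prop :=
  ∀ n : ℕ, unif v ^ n ∣ a - Polynomial.aeval (unif v) (trunc n p)

theorem exists_isExp [RationalPlace v] (a : v.toValuationSubring) :
    ∃ p : PowerSeries K, IsExp v a p := by
  choose g hg using exists_next v
  let s : ℕ → v.toValuationSubring := fun n => (fun x => (g x).2)^[n] a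
  refine ⟨PowerSeries.mk fun n => (g (s n)).1, fun n => ⟨s n, ?_⟩⟩
  induction n with
  | zero => simp [s]
  | succ n ih =>
    have h1 : s n = algebraMap K _ (g (s n)).1 + unif v * s (n + 1) := by
      have := hg (s n)
      simpa only [s, Function.iterate_succ_apply'] using this
    rw [trunc_succ, map_add, Polynomial.aeval_monomial, coeff_mk, pow_succ]
    linear_combination ih + (unif v ^ n) * h1

theorem not_unif_dvd_algebraMap {c : K} (hc : c ≠ 0) :
    ¬ unif v ∣ algebraMap K v.toValuationSubring c := by
  intro h
  exact (unif_irreducible v).not_isUnit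
    (isUnit_of_dvd_unit h ((Ne.isUnit hc).map (algebraMap K v.toValuationSubring)))

theorem IsExp.unique {a : v.toValuationSubring} {p q : PowerSeries K}
    (hp : IsExp v a p) (hq : IsExp v a q) : p = q := by
  ext n
  induction n using Nat.strong_induction_on with
  | _ n ih =>
    by_contra hne
    have ht : trunc n p = trunc n q := by
      ext m
      simp only [coeff_trunc]
      split_ifs with h
      · exact ih m h
      · rfl
    have h2 : unif v ^ (n + 1) ∣
        Polynomial.aeval (unif v) (trunc (n + 1) p) - Polynomial.aeval (unif v) (trunc (n + 1) q) := by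
      have := dvd_sub (hq (n + 1)) (hp (n + 1))
      convert this using 1
      ring
    rw [trunc_succ, trunc_succ, ht, map_add, map_add, Polynomial.aeval_monomial,
      Polynomial.aeval_monomial, add_sub_add_left_eq_sub, ← sub_mul, ← map_sub] at h2
    rw [pow_succ, mul_comm _ (unif v ^ n),
      mul_dvd_mul_iff_left (pow_ne_zero n (unif_ne_zero v))] at h2
    exact not_unif_dvd_algebraMap v (sub_ne_zero.mpr hne) h2

variable [RationalPlace v]

/-- Expansion on the valuation ring. -/
def expO : v.toValuationSubring →+* PowerSeries K where
  toFun a := (exists_isExp v a).choose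
  map_zero' := (exists_isExp v 0).choose_spec.unique v fun n => by simp
  map_one' := (exists_isExp v 1).choose_spec.unique v fun n => by
    rcases n with _ | n
    · simp
    · simp
  map_add' a b := (exists_isExp v (a + b)).choose_spec.unique v fun n => by
    have := dvd_add ((exists_isExp v a).choose_spec n) ((exists_isExp v b).choose_spec n)
    rw [map_add, map_add]
    convert this using 1
    ring
  map_mul' a b := (exists_isExp v (a * b)).choose_spec.unique v fun n => by
    set p := (exists_isExp v a).choose with hp
    set q := (exists_isExp v b).choose with hq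
    have hX : (Polynomial.X : Polynomial K) ^ n ∣ trunc n p * trunc n q - trunc n (p * q) := by
      rw [Polynomial.X_pow_dvd_iff]
      intro m hm
      rw [Polynomial.coeff_sub, sub_eq_zero, coeff_trunc, if_pos hm, Polynomial.coeff_mul,
        PowerSeries.coeff_mul]
      refine Finset.sum_congr rfl fun x hx => ?_
      have hx : x.1 + x.2 = m := Finset.HasAntidiagonal.mem_antidiagonal.mp hx
      rw [coeff_trunc, coeff_trunc, if_pos (by omega), if_pos (by omega)]
    have h3 : unif v ^ n ∣ Polynomial.aeval (unif v) (trunc n p * trunc n q - trunc n (p * q)) := by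
      have := map_dvd (Polynomial.aeval (unif v)) hX
      rwa [map_pow, Polynomial.aeval_X] at this
    rw [map_sub, map_mul] at h3
    have h4 : a * b - Polynomial.aeval (unif v) (trunc n (p * q)) =
        (a - Polynomial.aeval (unif v) (trunc n p)) * b
        + Polynomial.aeval (unif v) (trunc n p) * (b - Polynomial.aeval (unif v) (trunc n q))
        + (Polynomial.aeval (unif v) (trunc n p) * Polynomial.aeval (unif v) (trunc n q)
            - Polynomial.aeval (unif v) (trunc n (p * q))) := by ring
    rw [h4]
    exact dvd_add (dvd_add (((exists_isExp v a).choose_spec n).mul_right b)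
      (((exists_isExp v b).choose_spec n).mul_left _)) h3

theorem isExp_expO (a : v.toValuationSubring) : IsExp v a (expO v a) :=
  (exists_isExp v a).choose_spec

theorem expO_algebraMap (c : K) : expO v (algebraMap K _ c) = PowerSeries.C c :=
  (isExp_expO v _).unique v fun n => by
    rcases n with _ | n
    · simp
    · simp [Polynomial.aeval_C]

theorem expO_unif : expO v (unif v) = PowerSeries.X :=
  (isExp_expO v _).unique v fun n => by
    match n with
    | 0 => simp
    | 1 => simp [trunc_apply]
    | n + 2 => simp

theorem expO_injective : Function.Injective (expO v) := by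
  rw [injective_iff_map_eq_zero]
  intro a ha
  by_contra h0
  obtain ⟨n, u, rfl⟩ := IsDiscreteValuationRing.eq_unit_mul_pow_irreducible h0 (unif_irreducible v)
  rw [map_mul, map_pow, expO_unif] at ha
  exact mul_ne_zero ((u.isUnit.map (expO v)).ne_zero) (pow_ne_zero n PowerSeries.X_ne_zero) ha

/-- Laurent expansion on the function field. -/
def expand : F →+* LaurentSeries K :=
  IsFractionRing.lift (A := v.toValuationSubring)
    (g := (HahnSeries.ofPowerSeries ℤ K).comp (expO v))
    (HahnSeries.ofPowerSeries_injective.comp (expO_injective v))

theorem expand_coe (a : v.toValuationSubring) :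
    expand v (a : F) = HahnSeries.ofPowerSeries ℤ K (expO v a) :=
  IsFractionRing.lift_algebraMap _ a

theorem expand_algebraMap (c : K) : expand v (algebraMap K F c) = HahnSeries.C c := by
  rw [← v.coe_algebraMap c, expand_coe, expO_algebraMap, HahnSeries.ofPowerSeries_C]

theorem expand_unif : expand v (unif v : F) = HahnSeries.single (1 : ℤ) 1 := by
  rw [expand_coe, expO_unif, HahnSeries.ofPowerSeries_X]

theorem order_expand {f : F} (hf : f ≠ 0) : (expand v f).order = v.ord f := by
  obtain ⟨u, hu⟩ := v.exists_unit_mul_zpow hf (unif_irreducible v)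
  conv_lhs => rw [hu]
  rw [map_mul, map_zpow₀, expand_unif, ← RatFunc.single_zpow, expand_coe]
  have hu0 : constantCoeff (expO v u) ≠ 0 :=
    ((u.isUnit.map (expO v)).map constantCoeff).ne_zero
  have hne : HahnSeries.ofPowerSeries ℤ K (expO v u) ≠ 0 := fun h => by
    rw [map_eq_zero_iff _ HahnSeries.ofPowerSeries_injective] at h
    simp [h] at hu0
  rw [HahnSeries.order_mul hne (HahnSeries.single_ne_zero one_ne_zero),
    HahnSeries.order_single one_ne_zero]
  have hc : (HahnSeries.ofPowerSeries ℤ K (expO v u)).coeff ((0 : ℕ) : ℤ) ≠ 0 := by
    rw [HahnSeries.ofPowerSeries_apply_coeff, PowerSeries.coeff_zero_eq_constantCoeff]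
    exact hu0
  have h1 : (HahnSeries.ofPowerSeries ℤ K (expO v u)).order ≤ 0 := by
    simpa using HahnSeries.order_le_of_coeff_ne_zero hc
  have h2 : 0 ≤ (HahnSeries.ofPowerSeries ℤ K (expO v u)).order := by
    refine not_lt.mp fun hlt => ?_
    refine hne (HahnSeries.coeff_order_eq_zero.mp ?_)
    rw [HahnSeries.ofPowerSeries_apply, HahnSeries.embDomain_notin_range]
    rintro ⟨m, hm⟩
    exact absurd hlt (not_lt.mpr (hm ▸ Int.natCast_nonneg m))
  omega

theorem expand_ne_zero {f : F} (hf : f ≠ 0) : expand v f ≠ 0 :=
  (map_ne_zero (expand v)).mpr hf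

end

end FLTA.GenusKahler
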